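import Mathlib

/-!
# S10/S11: the rings of integers of `ℚ(ζ₇)`, `ℚ(ζ₁₁)`, `ℚ(ζ₁₃)` are principal ideal domains

Same shape as Mathlib's `IsCyclotomicExtension.Rat.five_pid`.  Method: Mathlib's criterion
`RingOfIntegers.isPrincipalIdealRing_of_isPrincipal_of_lt_or_isPrincipal_of_mem_primesOver_of_mem_Icc`
(Minkowski bound, Galois case); the inertia degree of an unramified prime `ℓ` is the order of
`ℓ` modulo `p`; for the finitely many primes `ℓ` with `ℓ ^ f` below the Minkowski bound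
(`ℓ = 23` for `p = 11`; `ℓ = 3, 53, 79, 131, 157` for `p = 13`) a prime above `ℓ` is given by
Kummer-Dedekind as `(ℓ, Q(ζ))` and is shown to be principal by an explicit generator `α` with
explicit cofactors (`ℓ = α β`, `Q(ζ) = α γ`, `α = ℓ u + Q(ζ) v`), each identity being a polynomial
identity modulo the cyclotomic relation.
-/

set_option autoImplicit false
set_option linter.style.haveILetI false
set_option linter.unusedSectionVars false

namespace Fermat.Agent.S10.CycloPID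

open NumberField Polynomial InfinitePlace Nat Real Module Ideal IsCyclotomicExtension.Rat
open RingOfIntegers NumberField.Ideal

variable (K : Type*) [Field K] [NumberField K]

local notation "MB " K:70 => (4 / π) ^ nrComplexPlaces K *
  ((finrank ℚ K)! / (finrank ℚ K) ^ (finrank ℚ K) * √|discr K|)

/-! ### The Minkowski bound -/

/-- The Minkowski bound of the `p`-th cyclotomic field, in closed form. -/
theorem minkowski_eq (p : ℕ) [hp : Fact p.Prime] [IsCyclotomicExtension {p} ℚ K] :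
    MB K = (4 / π) ^ ((p - 1) / 2) * (((p - 1)! : ℝ) / ((p - 1 : ℕ) : ℝ) ^ (p - 1) *
      √((p : ℝ) ^ (p - 2))) := by
  rw [discr_prime p K, IsCyclotomicExtension.Rat.finrank p K,
    nrComplexPlaces_eq_totient_div_two p, totient_prime hp.out]
  congr 3
  push_cast
  rw [abs_mul, abs_pow, abs_neg, abs_one, one_pow, one_mul, abs_pow, Nat.abs_cast]

/-- A numerical upper bound for the floor of the Minkowski bound. -/
theorem floor_minkowski_le (p : ℕ) [hp : Fact p.Prime] [IsCyclotomicExtension {p} ℚ K] (B : ℕ)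
    (h : (4 / π) ^ ((p - 1) / 2) * (((p - 1)! : ℝ) / ((p - 1 : ℕ) : ℝ) ^ (p - 1) *
      √((p : ℝ) ^ (p - 2))) < B + 1) :
    ⌊MB K⌋₊ ≤ B := by
  rw [minkowski_eq K p]
  have h2 := (Nat.floor_lt' (n := B + 1) (a := (4 / π) ^ ((p - 1) / 2) *
    (((p - 1)! : ℝ) / ((p - 1 : ℕ) : ℝ) ^ (p - 1) * √((p : ℝ) ^ (p - 2)))) (by omega)).mpr
      (by exact_mod_cast h)
  omega

theorem four_div_pi_lt : (4 / π) < 4 / 3.14 :=
  div_lt_div_of_pos_left (by norm_num) (by norm_num) pi_gt_d2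

theorem minkowski_seven_lt : (4 / π) ^ ((7 - 1) / 2) *
    (((7 - 1)! : ℝ) / ((7 - 1 : ℕ) : ℝ) ^ (7 - 1) * √((7 : ℝ) ^ (7 - 2))) < 4 + 1 := by
  have hπ := four_div_pi_lt
  have hπ0 : (0 : ℝ) < 4 / π := by positivity
  have hs : √(16807 : ℝ) < 130 := by
    rw [Real.sqrt_lt' (by norm_num)]
    norm_num
  norm_num
  calc (4 / π) ^ 3 * (5 / 324 * √16807) ≤ (4 / 3.14) ^ 3 * (5 / 324 * 130) := by
        gcongr
    _ < 5 := by norm_num

theorem minkowski_eleven_lt : (4 / π) ^ ((11 - 1) / 2) *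
    (((11 - 1)! : ℝ) / ((11 - 1 : ℕ) : ℝ) ^ (11 - 1) * √((11 : ℝ) ^ (11 - 2))) < 59 + 1 := by
  have hπ := four_div_pi_lt
  have hπ0 : (0 : ℝ) < 4 / π := by positivity
  have hs : √(2357947691 : ℝ) < 48565 := by
    rw [Real.sqrt_lt' (by norm_num)]
    norm_num
  norm_num
  calc (4 / π) ^ 5 * (567 / 1562500 * √2357947691)
      ≤ (4 / 3.14) ^ 5 * (567 / 1562500 * 48565) := by gcongr
    _ < 60 := by norm_num

theorem minkowski_thirteen_lt : (4 / π) ^ ((13 - 1) / 2) *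
    (((13 - 1)! : ℝ) / ((13 - 1 : ℕ) : ℝ) ^ (13 - 1) * √((13 : ℝ) ^ (13 - 2))) < 312 + 1 := by
  have hπ := four_div_pi_lt
  have hπ0 : (0 : ℝ) < 4 / π := by positivity
  have hs : √(1792160394037 : ℝ) < 1338750 := by
    rw [Real.sqrt_lt' (by norm_num)]
    norm_num
  norm_num
  calc (4 / π) ^ 6 * (1925 / 35831808 * √1792160394037)
      ≤ (4 / 3.14) ^ 6 * (1925 / 35831808 * 1338750) := by gcongr
    _ < 313 := by norm_num

/-! ### The three kinds of primes -/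

theorem le_orderOf_zmod {p : ℕ} [hp : Fact p.Prime] (x : ZMod p) (hx : x ≠ 0) (k : ℕ)
    (h : ∀ j < k, 0 < j → x ^ j ≠ 1) : k ≤ orderOf x := by
  by_contra hlt
  rw [not_le] at hlt
  have hpos : 0 < orderOf x := by
    rw [orderOf_pos_iff, isOfFinOrder_iff_pow_eq_one]
    exact ⟨p - 1, by have := hp.out.two_le; omega, ZMod.pow_card_sub_one_eq_one hx⟩
  exact h _ hlt hpos (pow_orderOf_eq_one x)

theorem span_natCast_isPrime {ℓ : ℕ} (hℓ : ℓ.Prime) : (span {(ℓ : ℤ)}).IsPrime := by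
  rw [Ideal.span_singleton_prime (by exact_mod_cast hℓ.ne_zero)]
  exact Nat.prime_iff_prime_int.mp hℓ

/-- An unramified prime `ℓ` with `ℓ ^ f` above the Minkowski bound. -/
theorem exists_of_pow_gt (p : ℕ) [hp : Fact p.Prime] [IsCyclotomicExtension {p} ℚ K] {B : ℕ}
    (hB : ⌊MB K⌋₊ ≤ B) {ℓ : ℕ} (hℓ : ℓ.Prime) (hne : ℓ ≠ p) (k : ℕ)
    (hk : ∀ j < k, 0 < j → (ℓ : ZMod p) ^ j ≠ 1) (hpow : B < ℓ ^ k) :
    ∃ P ∈ primesOver (span {(ℓ : ℤ)}) (𝓞 K),
      ⌊MB K⌋₊ < ℓ ^ P.inertiaDeg ℤ ∨ Submodule.IsPrincipal P := by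
  haveI : Fact ℓ.Prime := ⟨hℓ⟩
  haveI := span_natCast_isPrime hℓ
  obtain ⟨⟨P, hP1, hP2⟩⟩ := (span {(ℓ : ℤ)}).nonempty_primesOver (S := 𝓞 K)
  refine ⟨P, ⟨hP1, hP2⟩, Or.inl ?_⟩
  have hndvd : ¬ ℓ ∣ p := fun h => hne ((Nat.prime_dvd_prime_iff_eq hℓ hp.out).mp h)
  haveI : NeZero p := ⟨hp.out.ne_zero⟩
  rw [inertiaDeg_eq_of_not_dvd ℓ K P hndvd]
  have hx : (ℓ : ZMod p) ≠ 0 := by
    rw [Ne, ZMod.natCast_eq_zero_iff]
    exact fun h => hne ((Nat.prime_dvd_prime_iff_eq hp.out hℓ).mp h).symm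
  have hle := le_orderOf_zmod (ℓ : ZMod p) hx k hk
  calc ⌊MB K⌋₊ ≤ B := hB
    _ < ℓ ^ k := hpow
    _ ≤ ℓ ^ orderOf (ℓ : ZMod p) := Nat.pow_le_pow_right hℓ.pos hle

/-- An unramified prime `ℓ ≢ 1 mod p` with `ℓ ^ 2` above the Minkowski bound. -/
theorem exists_of_sq_gt (p : ℕ) [hp : Fact p.Prime] [IsCyclotomicExtension {p} ℚ K] {B : ℕ}
    (hB : ⌊MB K⌋₊ ≤ B) {ℓ : ℕ} (hℓ : ℓ.Prime) (hne : ℓ ≠ p) (h1 : ℓ % p ≠ 1)
    (hpow : B < ℓ ^ 2) :
    ∃ P ∈ primesOver (span {(ℓ : ℤ)}) (𝓞 K),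
      ⌊MB K⌋₊ < ℓ ^ P.inertiaDeg ℤ ∨ Submodule.IsPrincipal P := by
  refine exists_of_pow_gt K p hB hℓ hne 2 ?_ hpow
  intro j hj2 hj0
  obtain rfl : j = 1 := by omega
  rw [pow_one]
  intro h
  apply h1
  have h2 : ((ℓ : ℕ) : ZMod p) = ((1 : ℕ) : ZMod p) := by rw [h, Nat.cast_one]
  have h3 := (ZMod.natCast_eq_natCast_iff' ℓ 1 p).mp h2
  rw [h3, Nat.mod_eq_of_lt hp.out.one_lt]

/-- The ramified prime. -/
theorem exists_of_eq (p : ℕ) [hp : Fact p.Prime] [IsCyclotomicExtension {p} ℚ K] :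
    ∃ P ∈ primesOver (span {(p : ℤ)}) (𝓞 K),
      ⌊MB K⌋₊ < p ^ P.inertiaDeg ℤ ∨ Submodule.IsPrincipal P := by
  haveI := span_natCast_isPrime hp.out
  obtain ⟨⟨P, hP1, hP2⟩⟩ := (span {(p : ℤ)}).nonempty_primesOver (S := 𝓞 K)
  refine ⟨P, ⟨hP1, hP2⟩, Or.inr ?_⟩
  rw [eq_span_zeta_sub_one_of_liesOver' p K (IsCyclotomicExtension.zeta_spec p ℚ K) P]
  exact ⟨⟨_, rfl⟩⟩

/-- A prime `ℓ ≠ p` with an explicit generator of a prime above it. -/
theorem exists_of_cert (p : ℕ) [hp : Fact p.Prime] [IsCyclotomicExtension {p} ℚ K]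
    {ℓ : ℕ} (hℓ : ℓ.Prime) (Q : ℤ[X]) (hQm : Q.Monic)
    (hQi : Irreducible (Q.map (Int.castRingHom (ZMod ℓ))))
    (hQd : Q.map (Int.castRingHom (ZMod ℓ)) ∣ cyclotomic p (ZMod ℓ))
    (α β γ u v : 𝓞 K) (h1 : α * β = (ℓ : 𝓞 K))
    (h2 : α * γ = aeval (IsCyclotomicExtension.zeta_spec p ℚ K).toInteger Q)
    (h3 : α = (ℓ : 𝓞 K) * u + aeval (IsCyclotomicExtension.zeta_spec p ℚ K).toInteger Q * v) :
    ∃ P ∈ primesOver (span {(ℓ : ℤ)}) (𝓞 K),
      ⌊MB K⌋₊ < ℓ ^ P.inertiaDeg ℤ ∨ Submodule.IsPrincipal P := by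
  haveI : Fact ℓ.Prime := ⟨hℓ⟩
  haveI : NeZero p := ⟨hp.out.ne_zero⟩
  set θ := (IsCyclotomicExtension.zeta_spec p ℚ K).toInteger with hθ
  have hexp : ¬ ℓ ∣ exponent θ := by
    rw [exponent_eq_one_iff.mpr <| adjoin_singleton_eq_top (IsCyclotomicExtension.zeta_spec p ℚ K)]
    exact hℓ.not_dvd_one
  have hmin : (minpoly ℤ θ).map (Int.castRingHom (ZMod ℓ)) = cyclotomic p (ZMod ℓ) := by
    rw [← map_cyclotomic_int, cyclotomic_eq_minpoly (IsCyclotomicExtension.zeta_spec p ℚ K)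
      (NeZero.pos _), ← (IsCyclotomicExtension.zeta_spec p ℚ K).coe_toInteger,
      ← RingOfIntegers.minpoly_coe θ]
    rfl
  have hQ : Q.map (Int.castRingHom (ZMod ℓ)) ∈ monicFactorsMod θ ℓ := by
    rw [monicFactorsMod, Multiset.mem_toFinset, Polynomial.mem_normalizedFactors_iff
      (map_monic_ne_zero (minpoly.monic θ.isIntegral)), hmin]
    exact ⟨hQi, hQm.map _, hQd⟩
  have hprime := ((primesOverSpanEquivMonicFactorsMod hexp).symm ⟨_, hQ⟩).prop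
  rw [primesOverSpanEquivMonicFactorsMod_symm_apply_eq_span hexp hQ] at hprime
  refine ⟨_, hprime, Or.inr ?_⟩
  have heq : span {(ℓ : 𝓞 K), aeval θ Q} = span {α} := by
    apply le_antisymm
    · rw [Ideal.span_le]
      intro x hx
      rcases hx with rfl | hx
      · exact Ideal.mem_span_singleton.mpr ⟨β, h1.symm⟩
      · rw [Set.mem_singleton_iff] at hx
        subst hx
        exact Ideal.mem_span_singleton.mpr ⟨γ, h2.symm⟩
    · rw [Ideal.span_le]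
      intro x hx
      rw [Set.mem_singleton_iff] at hx
      subst hx
      rw [SetLike.mem_coe, h3]
      exact Ideal.add_mem _ (Ideal.mul_mem_right _ _ (Ideal.subset_span (by simp)))
        (Ideal.mul_mem_right _ _ (Ideal.subset_span (by simp)))
  rw [heq]
  exact ⟨⟨α, rfl⟩⟩

theorem geom_sum_zeta (p : ℕ) [hp : Fact p.Prime] [IsCyclotomicExtension {p} ℚ K] :
    ∑ i ∈ Finset.range p, (IsCyclotomicExtension.zeta_spec p ℚ K).toInteger ^ i = 0 := by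
  haveI : NeZero p := ⟨hp.out.ne_zero⟩
  exact (IsCyclotomicExtension.zeta_spec p ℚ K).toInteger_isPrimitiveRoot.geom_sum_eq_zero
    hp.out.one_lt

theorem linear_dvd_cyclotomic (p ℓ : ℕ) [hp : Fact p.Prime] (a : ℤ)
    (h : ∑ i ∈ Finset.range p, (a : ZMod ℓ) ^ i = 0) :
    (X - C a : ℤ[X]).map (Int.castRingHom (ZMod ℓ)) ∣ cyclotomic p (ZMod ℓ) := by
  rw [Polynomial.map_sub, Polynomial.map_X, Polynomial.map_C, dvd_iff_isRoot, IsRoot.def,
    cyclotomic_prime, eval_finsetSum]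
  simpa using h

theorem linear_irreducible (ℓ : ℕ) [Fact ℓ.Prime] (a : ℤ) :
    Irreducible ((X - C a : ℤ[X]).map (Int.castRingHom (ZMod ℓ))) := by
  rw [Polynomial.map_sub, Polynomial.map_X, Polynomial.map_C]
  exact irreducible_X_sub_C _

theorem aeval_X_sub_C' {K : Type*} [Field K] (θ : 𝓞 K) (a : ℤ) :
    aeval θ (X - C a : ℤ[X]) = θ - (a : 𝓞 K) := by
  rw [map_sub, aeval_X, aeval_C, eq_intCast]

/-! ### `p = 7` -/

theorem ord_7_2 : ∀ j < 3, 0 < j → ((2 : ℕ) : ZMod 7) ^ j ≠ 1 := by decide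

theorem ord_7_3 : ∀ j < 2, 0 < j → ((3 : ℕ) : ZMod 7) ^ j ≠ 1 := by decide

/-- If `IsCyclotomicExtension {7} ℚ K` then `𝓞 K` is a principal ideal domain. -/
theorem seven_pid [IsCyclotomicExtension {7} ℚ K] : IsPrincipalIdealRing (𝓞 K) := by
  haveI : Fact (Nat.Prime 7) := ⟨by norm_num⟩
  haveI : IsGalois ℚ K := IsCyclotomicExtension.isGalois {7} ℚ K
  have hB := floor_minkowski_le K 7 4 minkowski_seven_lt
  apply RingOfIntegers.isPrincipalIdealRing_of_isPrincipal_of_lt_or_isPrincipal_of_mem_primesOver_of_mem_Icc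
  intro ℓ hℓ hℓp
  rw [Finset.mem_Icc] at hℓ
  have hℓ4 : ℓ ≤ 4 := hℓ.2.trans hB
  have h1 := hℓ.1
  interval_cases ℓ
  · exact absurd hℓp (by norm_num)
  · exact exists_of_pow_gt K 7 hB hℓp (by norm_num) 3 ord_7_2 (by norm_num)
  · exact exists_of_pow_gt K 7 hB hℓp (by norm_num) 2 ord_7_3 (by norm_num)
  · exact absurd hℓp (by norm_num)

/-! ### `p = 11` -/

theorem ord_11_2 : ∀ j < 6, 0 < j → ((2 : ℕ) : ZMod 11) ^ j ≠ 1 := by decide

theorem ord_11_3 : ∀ j < 4, 0 < j → ((3 : ℕ) : ZMod 11) ^ j ≠ 1 := by decide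

theorem ord_11_5 : ∀ j < 3, 0 < j → ((5 : ℕ) : ZMod 11) ^ j ≠ 1 := by decide

theorem ord_11_7 : ∀ j < 3, 0 < j → ((7 : ℕ) : ZMod 11) ^ j ≠ 1 := by decide

theorem root_11_23 : ∑ i ∈ Finset.range 11, ((13 : ℤ) : ZMod 23) ^ i = 0 := by decide

theorem cert_11_23 [IsCyclotomicExtension {11} ℚ K] [Fact (Nat.Prime 11)] :
    ∃ P ∈ primesOver (span {((23 : ℕ) : ℤ)}) (𝓞 K),
      ⌊MB K⌋₊ < 23 ^ P.inertiaDeg ℤ ∨ Submodule.IsPrincipal P := by
  have hℓ : Nat.Prime 23 := by norm_num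
  haveI : Fact (Nat.Prime 23) := ⟨hℓ⟩
  have hΦ := geom_sum_zeta K 11
  set z := (IsCyclotomicExtension.zeta_spec 11 ℚ K).toInteger with hz
  simp only [Finset.sum_range_succ, Finset.sum_range_zero, zero_add, pow_zero, pow_one] at hΦ
  refine exists_of_cert K 11 hℓ (X - C 13) (monic_X_sub_C _) (linear_irreducible 23 13)
    (linear_dvd_cyclotomic 11 23 13 root_11_23)
    (1 - z + z ^ 3)
    (8 - 2 * z - z ^ 2 - 8 * z ^ 3 - 5 * z ^ 4 - 3 * z ^ 5 + 6 * z ^ 6 + 12 * z ^ 7 + 16 * z ^ 8 + 11 * z ^ 9)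
    (-5 + z + 4 * z ^ 3 + 2 * z ^ 4 + z ^ 5 - 4 * z ^ 6 - 7 * z ^ 7 - 9 * z ^ 8 - 6 * z ^ 9)
    95 (168 + 13 * z + z ^ 2) ?_ ?_ ?_
  · rw [Nat.cast_ofNat]
    linear_combination (-15 + 5 * z + 11 * z ^ 2) * hΦ
  · rw [aeval_X_sub_C', Int.cast_ofNat]
    linear_combination (8 - 3 * z - 6 * z ^ 2) * hΦ
  · rw [aeval_X_sub_C', Int.cast_ofNat, Nat.cast_ofNat]
    ring

/-- If `IsCyclotomicExtension {11} ℚ K` then `𝓞 K` is a principal ideal domain. -/
theorem eleven_pid [IsCyclotomicExtension {11} ℚ K] : IsPrincipalIdealRing (𝓞 K) := by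
  haveI : Fact (Nat.Prime 11) := ⟨by norm_num⟩
  haveI : IsGalois ℚ K := IsCyclotomicExtension.isGalois {11} ℚ K
  have hB := floor_minkowski_le K 11 59 minkowski_eleven_lt
  apply RingOfIntegers.isPrincipalIdealRing_of_isPrincipal_of_lt_or_isPrincipal_of_mem_primesOver_of_mem_Icc
  intro ℓ hℓ hℓp
  rw [Finset.mem_Icc] at hℓ
  have hℓB : ℓ ≤ 59 := hℓ.2.trans hB
  have h1 := hℓ.1
  by_cases hp : ℓ = 11
  · subst hp
    exact exists_of_eq K 11
  by_cases h23 : ℓ = 23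
  · subst h23
    exact cert_11_23 K
  by_cases hsmall : ℓ < 8
  · interval_cases ℓ
    · exact absurd hℓp (by norm_num)
    · exact exists_of_pow_gt K 11 hB hℓp (by norm_num) 6 ord_11_2 (by norm_num)
    · exact exists_of_pow_gt K 11 hB hℓp (by norm_num) 4 ord_11_3 (by norm_num)
    · exact absurd hℓp (by norm_num)
    · exact exists_of_pow_gt K 11 hB hℓp (by norm_num) 3 ord_11_5 (by norm_num)
    · exact absurd hℓp (by norm_num)
    · exact exists_of_pow_gt K 11 hB hℓp (by norm_num) 3 ord_11_7 (by norm_num)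
  · refine exists_of_sq_gt K 11 hB hℓp hp ?_ (by nlinarith)
    intro hmod
    have hcases : ℓ = 12 ∨ ℓ = 23 ∨ ℓ = 34 ∨ ℓ = 45 ∨ ℓ = 56 := by omega
    rcases hcases with rfl | rfl | rfl | rfl | rfl
    · exact absurd hℓp (by norm_num)
    · exact h23 rfl
    · exact absurd hℓp (by norm_num)
    · exact absurd hℓp (by norm_num)
    · exact absurd hℓp (by norm_num)

/-! ### `p = 13` -/

theorem ord_13_2 : ∀ j < 9, 0 < j → ((2 : ℕ) : ZMod 13) ^ j ≠ 1 := by decide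

theorem ord_13_5 : ∀ j < 4, 0 < j → ((5 : ℕ) : ZMod 13) ^ j ≠ 1 := by decide

theorem ord_13_7 : ∀ j < 3, 0 < j → ((7 : ℕ) : ZMod 13) ^ j ≠ 1 := by decide

theorem ord_13_11 : ∀ j < 3, 0 < j → ((11 : ℕ) : ZMod 13) ^ j ≠ 1 := by decide

theorem ord_13_17 : ∀ j < 3, 0 < j → ((17 : ℕ) : ZMod 13) ^ j ≠ 1 := by decide

theorem root_13_53 : ∑ i ∈ Finset.range 13, ((16 : ℤ) : ZMod 53) ^ i = 0 := by decide

theorem cert_13_53 [IsCyclotomicExtension {13} ℚ K] [Fact (Nat.Prime 13)] :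
    ∃ P ∈ primesOver (span {((53 : ℕ) : ℤ)}) (𝓞 K),
      ⌊MB K⌋₊ < 53 ^ P.inertiaDeg ℤ ∨ Submodule.IsPrincipal P := by
  have hℓ : Nat.Prime 53 := by norm_num
  haveI : Fact (Nat.Prime 53) := ⟨hℓ⟩
  have hΦ := geom_sum_zeta K 13
  set z := (IsCyclotomicExtension.zeta_spec 13 ℚ K).toInteger with hz
  simp only [Finset.sum_range_succ, Finset.sum_range_zero, zero_add, pow_zero, pow_one] at hΦ
  refine exists_of_cert K 13 hℓ (X - C 16) (monic_X_sub_C _) (linear_irreducible 53 16)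
    (linear_dvd_cyclotomic 13 53 16 root_13_53)
    (1 - z + z ^ 3)
    (25 + 10 * z + 19 * z ^ 2 + 3 * z ^ 3 + 2 * z ^ 4 - 8 * z ^ 5 - 2 * z ^ 6 + 5 * z ^ 7 + 22 * z ^ 8 + 33 * z ^ 9 + 37 * z ^ 10 + 24 * z ^ 11)
    (-8 - 3 * z - 6 * z ^ 2 - z ^ 3 - z ^ 4 + 2 * z ^ 5 - 2 * z ^ 7 - 7 * z ^ 8 - 10 * z ^ 9 - 11 * z ^ 10 - 7 * z ^ 11)
    77 (255 + 16 * z + z ^ 2) ?_ ?_ ?_
  · rw [Nat.cast_ofNat]
    linear_combination (-28 + 13 * z + 24 * z ^ 2) * hΦ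
  · rw [aeval_X_sub_C', Int.cast_ofNat]
    linear_combination (8 - 4 * z - 7 * z ^ 2) * hΦ
  · rw [aeval_X_sub_C', Int.cast_ofNat, Nat.cast_ofNat]
    ring

theorem root_13_79 : ∑ i ∈ Finset.range 13, ((62 : ℤ) : ZMod 79) ^ i = 0 := by decide

theorem cert_13_79 [IsCyclotomicExtension {13} ℚ K] [Fact (Nat.Prime 13)] :
    ∃ P ∈ primesOver (span {((79 : ℕ) : ℤ)}) (𝓞 K),
      ⌊MB K⌋₊ < 79 ^ P.inertiaDeg ℤ ∨ Submodule.IsPrincipal P := by
  have hℓ : Nat.Prime 79 := by norm_num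
  haveI : Fact (Nat.Prime 79) := ⟨hℓ⟩
  have hΦ := geom_sum_zeta K 13
  set z := (IsCyclotomicExtension.zeta_spec 13 ℚ K).toInteger with hz
  simp only [Finset.sum_range_succ, Finset.sum_range_zero, zero_add, pow_zero, pow_one] at hΦ
  refine exists_of_cert K 13 hℓ (X - C 62) (monic_X_sub_C _) (linear_irreducible 79 62)
    (linear_dvd_cyclotomic 13 79 62 root_13_79)
    (1 - z - z ^ 4)
    (62 + 63 * z + 49 * z ^ 2 + 8 * z ^ 3 + 29 * z ^ 4 + 51 * z ^ 5 + 59 * z ^ 6 + 26 * z ^ 7 + 14 * z ^ 8 + 24 * z ^ 9 + 42 * z ^ 10 + 27 * z ^ 11)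
    (-49 - 49 * z - 38 * z ^ 2 - 6 * z ^ 3 - 23 * z ^ 4 - 40 * z ^ 5 - 46 * z ^ 6 - 20 * z ^ 7 - 11 * z ^ 8 - 19 * z ^ 9 - 33 * z ^ 10 - 21 * z ^ 11)
    (-187043) (-238329 - 3844 * z - 62 * z ^ 2 - z ^ 3) ?_ ?_ ?_
  · rw [Nat.cast_ofNat]
    linear_combination (-17 + 18 * z - 15 * z ^ 2 - 27 * z ^ 3) * hΦ
  · rw [aeval_X_sub_C', Int.cast_ofNat]
    linear_combination (13 - 14 * z + 12 * z ^ 2 + 21 * z ^ 3) * hΦ
  · rw [aeval_X_sub_C', Int.cast_ofNat, Nat.cast_ofNat]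
    ring

theorem root_13_131 : ∑ i ∈ Finset.range 13, ((80 : ℤ) : ZMod 131) ^ i = 0 := by decide

theorem cert_13_131 [IsCyclotomicExtension {13} ℚ K] [Fact (Nat.Prime 13)] :
    ∃ P ∈ primesOver (span {((131 : ℕ) : ℤ)}) (𝓞 K),
      ⌊MB K⌋₊ < 131 ^ P.inertiaDeg ℤ ∨ Submodule.IsPrincipal P := by
  have hℓ : Nat.Prime 131 := by norm_num
  haveI : Fact (Nat.Prime 131) := ⟨hℓ⟩
  have hΦ := geom_sum_zeta K 13
  set z := (IsCyclotomicExtension.zeta_spec 13 ℚ K).toInteger with hz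
  simp only [Finset.sum_range_succ, Finset.sum_range_zero, zero_add, pow_zero, pow_one] at hΦ
  refine exists_of_cert K 13 hℓ (X - C 80) (monic_X_sub_C _) (linear_irreducible 131 80)
    (linear_dvd_cyclotomic 13 131 80 root_13_131)
    (1 - z - z ^ 3)
    (111 + 78 * z + 17 * z ^ 2 + 67 * z ^ 3 + 84 * z ^ 4 + 40 * z ^ 5 + 46 * z ^ 6 + 69 * z ^ 7 + 48 * z ^ 8 + 33 * z ^ 9 + 41 * z ^ 10 + 28 * z ^ 11)
    (-68 - 47 * z - 10 * z ^ 2 - 41 * z ^ 3 - 51 * z ^ 4 - 24 * z ^ 5 - 28 * z ^ 6 - 42 * z ^ 7 - 29 * z ^ 8 - 20 * z ^ 9 - 25 * z ^ 10 - 17 * z ^ 11)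
    (-3909) (-6401 - 80 * z - z ^ 2) ?_ ?_ ?_
  · rw [Nat.cast_ofNat]
    linear_combination (-20 - 13 * z - 28 * z ^ 2) * hΦ
  · rw [aeval_X_sub_C', Int.cast_ofNat]
    linear_combination (12 + 8 * z + 17 * z ^ 2) * hΦ
  · rw [aeval_X_sub_C', Int.cast_ofNat, Nat.cast_ofNat]
    ring

theorem root_13_157 : ∑ i ∈ Finset.range 13, ((75 : ℤ) : ZMod 157) ^ i = 0 := by decide

theorem cert_13_157 [IsCyclotomicExtension {13} ℚ K] [Fact (Nat.Prime 13)] :
    ∃ P ∈ primesOver (span {((157 : ℕ) : ℤ)}) (𝓞 K),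
      ⌊MB K⌋₊ < 157 ^ P.inertiaDeg ℤ ∨ Submodule.IsPrincipal P := by
  have hℓ : Nat.Prime 157 := by norm_num
  haveI : Fact (Nat.Prime 157) := ⟨hℓ⟩
  have hΦ := geom_sum_zeta K 13
  set z := (IsCyclotomicExtension.zeta_spec 13 ℚ K).toInteger with hz
  simp only [Finset.sum_range_succ, Finset.sum_range_zero, zero_add, pow_zero, pow_one] at hΦ
  refine exists_of_cert K 13 hℓ (X - C 75) (monic_X_sub_C _) (linear_irreducible 157 75)
    (linear_dvd_cyclotomic 13 157 75 root_13_157)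
    (1 - z + z ^ 2 + z ^ 4)
    (89 + 86 * z + 42 * z ^ 2 + 77 * z ^ 3 + 67 * z ^ 4 + 25 * z ^ 5 + 37 * z ^ 6 + 56 * z ^ 7 + 73 * z ^ 8 + 113 * z ^ 9 + 124 * z ^ 10 + 76 * z ^ 11)
    (-43 - 41 * z - 20 * z ^ 2 - 37 * z ^ 3 - 32 * z ^ 4 - 12 * z ^ 5 - 18 * z ^ 6 - 27 * z ^ 7 - 35 * z ^ 8 - 54 * z ^ 9 - 59 * z ^ 10 - 36 * z ^ 11)
    201568 (421949 + 5626 * z + 75 * z ^ 2 + z ^ 3) ?_ ?_ ?_
  · rw [Nat.cast_ofNat]
    linear_combination (-68 + 65 * z + 48 * z ^ 2 + 76 * z ^ 3) * hΦ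
  · rw [aeval_X_sub_C', Int.cast_ofNat]
    linear_combination (32 - 31 * z - 23 * z ^ 2 - 36 * z ^ 3) * hΦ
  · rw [aeval_X_sub_C', Int.cast_ofNat, Nat.cast_ofNat]
    ring

/-- The cubic `X ^ 3 - X - 1`, a factor of the `13`-th cyclotomic polynomial modulo `3`. -/
noncomputable def cubic : ℤ[X] := X ^ 3 - (X + C 1)

theorem cubic_monic : cubic.Monic := by
  unfold cubic
  apply monic_X_pow_sub
  rw [degree_X_add_C]
  norm_num

theorem cubic_natDegree : cubic.natDegree = 3 := by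
  unfold cubic
  rw [natDegree_sub_eq_left_of_natDegree_lt, natDegree_X_pow]
  rw [natDegree_X_pow, natDegree_X_add_C]
  norm_num

theorem cubic_no_root : ∀ x : ZMod 3, x ^ 3 - (x + 1) ≠ 0 := by decide

theorem cubic_map : cubic.map (Int.castRingHom (ZMod 3)) = X ^ 3 - (X + C 1) := by
  simp [cubic]

theorem cubic_irreducible : Irreducible (cubic.map (Int.castRingHom (ZMod 3))) := by
  have hm : (cubic.map (Int.castRingHom (ZMod 3))).Monic := cubic_monic.map _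
  have hdeg : (cubic.map (Int.castRingHom (ZMod 3))).natDegree = 3 := by
    rw [cubic_monic.natDegree_map, cubic_natDegree]
  rw [hm.irreducible_iff_roots_eq_zero_of_degree_le_three (by omega) (by omega)]
  rw [Multiset.eq_zero_iff_forall_notMem]
  intro x hx
  have hroot := (mem_roots hm.ne_zero).mp hx
  rw [cubic_map, IsRoot.def] at hroot
  simp only [eval_sub, eval_pow, eval_X, eval_add, eval_C] at hroot
  exact cubic_no_root x hroot

theorem cubic_dvd : cubic.map (Int.castRingHom (ZMod 3)) ∣ cyclotomic 13 (ZMod 3) := by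
  haveI : Fact (Nat.Prime 13) := ⟨by norm_num⟩
  have key : cubic * (20 + 15 * X + 11 * X ^ 2 + 8 * X ^ 3 + 6 * X ^ 4 + 4 * X ^ 5 + 3 * X ^ 6 +
      2 * X ^ 7 + X ^ 8 + X ^ 9) = cyclotomic 13 ℤ - C 3 * (7 + 12 * X + 9 * X ^ 2) := by
    rw [cyclotomic_prime]
    simp only [Finset.sum_range_succ, Finset.sum_range_zero, zero_add, pow_zero, pow_one, cubic]
    have h1 : (C 1 : ℤ[X]) = 1 := C_1
    have h3 : (C 3 : ℤ[X]) = 3 := rfl
    rw [h1, h3]
    ring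
  have key2 := congrArg (Polynomial.map (Int.castRingHom (ZMod 3))) key
  rw [Polynomial.map_mul, Polynomial.map_sub, map_cyclotomic_int, Polynomial.map_mul,
    Polynomial.map_C] at key2
  have h30 : (Int.castRingHom (ZMod 3)) 3 = 0 := by decide
  rw [h30, C_0, zero_mul, sub_zero] at key2
  exact Dvd.intro _ key2

theorem aeval_cubic {K : Type*} [Field K] (θ : 𝓞 K) : aeval θ cubic = θ ^ 3 - (θ + 1) := by
  simp [cubic]

theorem cert_13_3 [IsCyclotomicExtension {13} ℚ K] [Fact (Nat.Prime 13)] :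
    ∃ P ∈ primesOver (span {((3 : ℕ) : ℤ)}) (𝓞 K),
      ⌊MB K⌋₊ < 3 ^ P.inertiaDeg ℤ ∨ Submodule.IsPrincipal P := by
  have hℓ : Nat.Prime 3 := by norm_num
  haveI : Fact (Nat.Prime 3) := ⟨hℓ⟩
  have hΦ := geom_sum_zeta K 13
  set z := (IsCyclotomicExtension.zeta_spec 13 ℚ K).toInteger with hz
  simp only [Finset.sum_range_succ, Finset.sum_range_zero, zero_add, pow_zero, pow_one] at hΦ
  refine exists_of_cert K 13 hℓ cubic cubic_monic cubic_irreducible cubic_dvd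
    (1 + z - z ^ 3)
    (-1 - z ^ 2 - z ^ 3 - 2 * z ^ 5 - z ^ 7 - 2 * z ^ 8 + z ^ 9 - 3 * z ^ 10)
    (-1) 0 (-1) ?_ ?_ ?_
  · rw [Nat.cast_ofNat]
    linear_combination (-4 + 3 * z) * hΦ
  · rw [aeval_cubic]
    ring
  · rw [aeval_cubic]
    ring

/-- If `IsCyclotomicExtension {13} ℚ K` then `𝓞 K` is a principal ideal domain. -/
theorem thirteen_pid [IsCyclotomicExtension {13} ℚ K] : IsPrincipalIdealRing (𝓞 K) := by
  haveI : Fact (Nat.Prime 13) := ⟨by norm_num⟩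
  haveI : IsGalois ℚ K := IsCyclotomicExtension.isGalois {13} ℚ K
  have hB := floor_minkowski_le K 13 312 minkowski_thirteen_lt
  apply RingOfIntegers.isPrincipalIdealRing_of_isPrincipal_of_lt_or_isPrincipal_of_mem_primesOver_of_mem_Icc
  intro ℓ hℓ hℓp
  rw [Finset.mem_Icc] at hℓ
  have hℓB : ℓ ≤ 312 := hℓ.2.trans hB
  have h1 := hℓ.1
  by_cases hp : ℓ = 13
  · subst hp
    exact exists_of_eq K 13
  by_cases hsmall : ℓ < 18
  · interval_cases ℓ
    · exact absurd hℓp (by norm_num)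
    · exact exists_of_pow_gt K 13 hB hℓp (by norm_num) 9 ord_13_2 (by norm_num)
    · exact cert_13_3 K
    · exact absurd hℓp (by norm_num)
    · exact exists_of_pow_gt K 13 hB hℓp (by norm_num) 4 ord_13_5 (by norm_num)
    · exact absurd hℓp (by norm_num)
    · exact exists_of_pow_gt K 13 hB hℓp (by norm_num) 3 ord_13_7 (by norm_num)
    · exact absurd hℓp (by norm_num)
    · exact absurd hℓp (by norm_num)
    · exact absurd hℓp (by norm_num)
    · exact exists_of_pow_gt K 13 hB hℓp (by norm_num) 3 ord_13_11 (by norm_num)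
    · exact absurd hℓp (by norm_num)
    · exact absurd rfl hp
    · exact absurd hℓp (by norm_num)
    · exact absurd hℓp (by norm_num)
    · exact absurd hℓp (by norm_num)
    · exact exists_of_pow_gt K 13 hB hℓp (by norm_num) 3 ord_13_17 (by norm_num)
  by_cases hmod : ℓ % 13 = 1
  · obtain ⟨k, hk⟩ : ∃ k, ℓ = 13 * k + 1 := ⟨ℓ / 13, by omega⟩
    have hk1 : 2 ≤ k := by omega
    have hk2 : k ≤ 23 := by omega
    subst hk
    interval_cases k
    · exact absurd hℓp (by norm_num)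
    · exact absurd hℓp (by norm_num)
    · exact cert_13_53 K
    · exact absurd hℓp (by norm_num)
    · exact cert_13_79 K
    · exact absurd hℓp (by norm_num)
    · exact absurd hℓp (by norm_num)
    · exact absurd hℓp (by norm_num)
    · exact cert_13_131 K
    · exact absurd hℓp (by norm_num)
    · exact cert_13_157 K
    · exact absurd hℓp (by norm_num)
    · exact absurd hℓp (by norm_num)
    · exact absurd hℓp (by norm_num)
    · exact absurd hℓp (by norm_num)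
    · exact absurd hℓp (by norm_num)
    · exact absurd hℓp (by norm_num)
    · exact absurd hℓp (by norm_num)
    · exact absurd hℓp (by norm_num)
    · exact absurd hℓp (by norm_num)
    · exact absurd hℓp (by norm_num)
    · exact absurd hℓp (by norm_num)
  · exact exists_of_sq_gt K 13 hB hℓp hp hmod (by nlinarith)

end Fermat.Agent.S10.CycloPID
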