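import Mathlib

/-!
# S10 / S11 : the second case of Fermat's Last Theorem for a prime `p` with `ℤ[ζ_p]` a PID

Kummer's descent.  The descent itself is carried out in an abstract principal ideal domain `R`
containing a primitive `p`-th root of unity `ζ` such that `ζ - 1` is prime, `(ζ - 1) ^ (p - 1)` is
associated to `p`, every element of `R` is congruent to a rational integer modulo `ζ - 1`, and
Kummer's lemma holds (a unit congruent to a rational integer modulo `p` is a `p`-th power):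
there are no `x y z : R`, `ε : Rˣ`, `m ≥ 1` with `x`, `y` coprime, `ζ - 1 ∤ z` and
`x ^ p + y ^ p = ε * (ζ - 1) ^ (p * m) * z ^ p`.
-/

set_option autoImplicit false
set_option linter.unusedSectionVars false
set_option linter.style.haveILetI false
set_option linter.unusedVariables false

namespace Fermat.Agent.S10.CaseII

open Finset

section Abstract

variable {R : Type*} [CommRing R] [IsDomain R] {p : ℕ} {ζ : R}

theorem sub_one_dvd_pow_sub_one (ζ : R) (k : ℕ) : ζ - 1 ∣ ζ ^ k - 1 := by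
  simpa using sub_dvd_pow_sub_pow ζ 1 k

theorem sub_one_dvd_geom_sum_sub (ζ : R) (k : ℕ) :
    ζ - 1 ∣ (∑ j ∈ range k, ζ ^ j) - (k : R) := by
  have : (∑ j ∈ range k, ζ ^ j) - (k : R) = ∑ j ∈ range k, (ζ ^ j - 1) := by
    rw [Finset.sum_sub_distrib]; simp
  rw [this]
  exact Finset.dvd_sum fun j _ => sub_one_dvd_pow_sub_one ζ j

theorem pow_sub_one_eq (ζ : R) (k : ℕ) : ζ ^ k - 1 = (ζ - 1) * ∑ j ∈ range k, ζ ^ j :=
  (mul_geom_sum ζ k).symm

/-- The factorisation of `x ^ p + y ^ p` indexed by `range p`. -/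
theorem pow_add_pow_eq_prod_range (hζ : IsPrimitiveRoot ζ p) (hodd : Odd p) (x y : R) :
    x ^ p + y ^ p = ∏ k ∈ range p, (x + ζ ^ k * y) := by
  classical
  have hp0 : 0 < p := hodd.pos
  haveI : NeZero p := ⟨hp0.ne'⟩
  rw [hζ.pow_add_pow_eq_prod_add_mul x y hodd]
  have himg : Polynomial.nthRootsFinset p (1 : R) = (range p).image (fun k => ζ ^ k) := by
    symm
    apply Finset.eq_of_subset_of_card_le
    · intro η hη
      obtain ⟨k, -, rfl⟩ := Finset.mem_image.mp hη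
      rw [Polynomial.mem_nthRootsFinset hp0]
      rw [← pow_mul, mul_comm, pow_mul, hζ.pow_eq_one, one_pow]
    · rw [hζ.card_nthRootsFinset, Finset.card_image_of_injOn, Finset.card_range]
      intro i hi j hj hij
      exact hζ.pow_inj (Finset.mem_range.mp hi) (Finset.mem_range.mp hj) hij
  rw [himg, Finset.prod_image]
  intro i hi j hj hij
  exact hζ.pow_inj (Finset.mem_range.mp hi) (Finset.mem_range.mp hj) hij

/-! ### The standing hypotheses on `R` -/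

variable [IsPrincipalIdealRing R]

/-- `ζ - 1 ∣ p`. -/
theorem sub_one_dvd_prime (hp : p.Prime) (hpl : Associated ((ζ - 1) ^ (p - 1)) (p : R)) :
    ζ - 1 ∣ (p : R) := by
  have h1 : 1 ≤ p - 1 := by have := hp.two_le; omega
  exact (dvd_pow_self (ζ - 1) (by omega)).trans hpl.dvd

/-- `p ∣ (ζ - 1) ^ p`. -/
theorem prime_dvd_sub_one_pow (hp : p.Prime) (hpl : Associated ((ζ - 1) ^ (p - 1)) (p : R)) :
    (p : R) ∣ (ζ - 1) ^ p := by
  have h1 : p = (p - 1) + 1 := by have := hp.two_le; omega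
  calc (p : R) ∣ (ζ - 1) ^ (p - 1) := hpl.symm.dvd
    _ ∣ (ζ - 1) ^ p := pow_dvd_pow _ (by omega)

/-- A rational integer is divisible by `ζ - 1` iff it is divisible by `p`. -/
theorem sub_one_dvd_intCast_iff (hp : p.Prime) (hl : Prime (ζ - 1))
    (hpl : Associated ((ζ - 1) ^ (p - 1)) (p : R)) (n : ℤ) :
    ζ - 1 ∣ (n : R) ↔ (p : ℤ) ∣ n := by
  constructor
  · intro h
    by_contra hn
    have hcop : IsCoprime (p : ℤ) n :=
      (Prime.coprime_iff_not_dvd (Nat.prime_iff_prime_int.mp hp)).mpr hn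
    obtain ⟨a, b, hab⟩ := hcop
    have h1 : ζ - 1 ∣ ((a * p + b * n : ℤ) : R) := by
      push_cast
      exact dvd_add (Dvd.dvd.mul_left (sub_one_dvd_prime hp hpl) _) (Dvd.dvd.mul_left h _)
    rw [hab, Int.cast_one] at h1
    exact hl.not_isUnit (isUnit_of_dvd_one h1)
  · rintro ⟨c, rfl⟩
    push_cast
    exact Dvd.dvd.mul_right (sub_one_dvd_prime hp hpl) _

/-- `ζ - 1 ∣ x + y` if `ζ - 1 ∣ x ^ p + y ^ p`. -/
theorem sub_one_dvd_add (hp : p.Prime) (hl : Prime (ζ - 1))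
    (hpl : Associated ((ζ - 1) ^ (p - 1)) (p : R)) {x y : R} (h : ζ - 1 ∣ x ^ p + y ^ p) :
    ζ - 1 ∣ x + y := by
  obtain ⟨r, hr⟩ := exists_add_pow_prime_eq hp x y
  refine hl.dvd_of_dvd_pow (n := p) ?_
  rw [hr]
  exact dvd_add h (Dvd.dvd.mul_right (Dvd.dvd.mul_right (Dvd.dvd.mul_right
    (sub_one_dvd_prime hp hpl) _) _) _)

/-- every `p`-th power is congruent to a rational integer modulo `p`. -/
theorem exists_int_dvd_pow_sub (hp : p.Prime) (hpl : Associated ((ζ - 1) ^ (p - 1)) (p : R))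
    (hres : ∀ x : R, ∃ n : ℤ, ζ - 1 ∣ x - n) (w : R) : ∃ n : ℤ, (p : R) ∣ w ^ p - n := by
  obtain ⟨n, t, ht⟩ := hres w
  have hw : w = n + (ζ - 1) * t := by rw [← ht]; ring
  obtain ⟨r, hr⟩ := exists_add_pow_prime_eq hp (n : R) ((ζ - 1) * t)
  refine ⟨n ^ p, ?_⟩
  obtain ⟨c, hc⟩ := prime_dvd_sub_one_pow (ζ := ζ) hp hpl
  refine ⟨c * t ^ p + n * ((ζ - 1) * t) * r, ?_⟩
  rw [hw, hr, mul_pow, hc]
  push_cast
  ring

/-- Some twist `x + ζ ^ k * y` is divisible by `(ζ - 1) ^ 2`. -/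
theorem exists_sq_dvd (hp : p.Prime) (hl : Prime (ζ - 1))
    (hpl : Associated ((ζ - 1) ^ (p - 1)) (p : R))
    (hres : ∀ x : R, ∃ n : ℤ, ζ - 1 ∣ x - n) {x y : R} (hy : ¬ ζ - 1 ∣ y)
    (hxy : ζ - 1 ∣ x + y) : ∃ k : ℕ, (ζ - 1) ^ 2 ∣ x + ζ ^ k * y := by
  haveI : Fact p.Prime := ⟨hp⟩
  obtain ⟨t, ht⟩ := hxy
  obtain ⟨ny, hny⟩ := hres y
  obtain ⟨nt, hnt⟩ := hres t
  have hpy : ¬ (p : ℤ) ∣ ny := by
    intro h
    have := (sub_one_dvd_intCast_iff hp hl hpl ny).mpr h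
    exact hy (by simpa using dvd_add hny this)
  have hny0 : (ny : ZMod p) ≠ 0 := by
    rwa [Ne, ZMod.intCast_zmod_eq_zero_iff_dvd]
  set k : ℕ := ((-(nt : ZMod p)) * (ny : ZMod p)⁻¹).val with hk
  have hk0 : ((nt + k * ny : ℤ) : ZMod p) = 0 := by
    push_cast
    rw [hk, ZMod.natCast_val, ZMod.cast_id', id, mul_assoc, inv_mul_cancel₀ hny0]
    ring
  have hk1 : ζ - 1 ∣ ((nt + k * ny : ℤ) : R) :=
    (sub_one_dvd_intCast_iff hp hl hpl _).mpr ((ZMod.intCast_zmod_eq_zero_iff_dvd _ _).mp hk0)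
  refine ⟨k, ?_⟩
  have hx : x + ζ ^ k * y = (ζ - 1) * (t + (∑ j ∈ range k, ζ ^ j) * y) := by
    have := pow_sub_one_eq ζ k
    linear_combination ht + y * this
  rw [hx, pow_two]
  refine mul_dvd_mul_left _ ?_
  obtain ⟨a, ha⟩ := hny
  obtain ⟨b, hb⟩ := hnt
  obtain ⟨c, hc⟩ := sub_one_dvd_geom_sum_sub ζ k
  obtain ⟨d, hd⟩ := hk1
  push_cast at hd
  refine ⟨b + c * y + k * a + d, ?_⟩
  linear_combination hb + y * hc + (k : R) * ha + hd

/-- the twists are all divisible by `ζ - 1`. -/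
theorem sub_one_dvd_twist {x y : R} (hxy : ζ - 1 ∣ x + y) (k : ℕ) : ζ - 1 ∣ x + ζ ^ k * y := by
  have : x + ζ ^ k * y = (x + y) + (ζ ^ k - 1) * y := by ring
  rw [this]
  exact dvd_add hxy (Dvd.dvd.mul_right (sub_one_dvd_pow_sub_one ζ k) _)

theorem pow_mem_nthRootsFinset (hp : p.Prime) (hζ : IsPrimitiveRoot ζ p) (i : ℕ) :
    ζ ^ i ∈ Polynomial.nthRootsFinset p (1 : R) := by
  rw [Polynomial.mem_nthRootsFinset hp.pos, ← pow_mul, mul_comm, pow_mul, hζ.pow_eq_one, one_pow]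

/-- `ζ ^ i - ζ ^ j` is a unit times `ζ - 1`. -/
theorem exists_unit_pow_sub_pow (hp : p.Prime) (hζ : IsPrimitiveRoot ζ p) {i j : ℕ} (hi : i < p)
    (hj : j < p) (hij : i ≠ j) : ∃ u : Rˣ, ζ ^ i - ζ ^ j = (ζ - 1) * u := by
  have hne : ζ ^ i ≠ ζ ^ j := fun e => hij (hζ.pow_inj hi hj e)
  obtain ⟨u, hu⟩ := hζ.nthRootsFinset_pairwise_associated_sub_one_sub_of_prime hp
    (pow_mem_nthRootsFinset hp hζ i) (pow_mem_nthRootsFinset hp hζ j) hne
  exact ⟨u, hu.symm⟩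

/-- The descent step, for a solution normalised by `(ζ - 1) ^ 2 ∣ x + y`. -/
theorem step (hp : p.Prime) (hp2 : p ≠ 2) (hζ : IsPrimitiveRoot ζ p) (hl : Prime (ζ - 1))
    (hpl : Associated ((ζ - 1) ^ (p - 1)) (p : R))
    (hres : ∀ x : R, ∃ n : ℤ, ζ - 1 ∣ x - n)
    (hkum : ∀ (u : Rˣ) (n : ℤ), (p : R) ∣ (u : R) - n → ∃ v : Rˣ, u = v ^ p)
    {m : ℕ} (hm : 1 ≤ m) {x y z : R} {ε : Rˣ} (hxy : IsCoprime x y) (hz : ¬ ζ - 1 ∣ z)
    (h : x ^ p + y ^ p = ε * (ζ - 1) ^ (p * m) * z ^ p) (h2 : (ζ - 1) ^ 2 ∣ x + y) :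
    2 ≤ m ∧ ∃ (x' y' z' : R) (ε' : Rˣ), IsCoprime x' y' ∧ ¬ ζ - 1 ∣ z' ∧
      x' ^ p + y' ^ p = ε' * (ζ - 1) ^ (p * (m - 1)) * z' ^ p := by
  classical
  have hodd : Odd p := hp.odd_of_ne_two hp2
  have hp3 : 3 ≤ p := by have := hp.two_le; omega
  have hl0 : ζ - 1 ≠ 0 := hl.ne_zero
  have hxy1 : ζ - 1 ∣ x + y := (dvd_pow_self (ζ - 1) two_ne_zero).trans h2
  -- `ζ - 1 ∤ y`
  have hy : ¬ ζ - 1 ∣ y := by
    intro hy
    have hx : ζ - 1 ∣ x := by simpa using dvd_sub hxy1 hy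
    exact hl.not_isUnit (hxy.isUnit_of_dvd' hx hy)
  -- the quotients
  have hdiv : ∀ k : ℕ, ζ - 1 ∣ x + ζ ^ k * y := fun k => sub_one_dvd_twist hxy1 k
  choose w hw using hdiv
  have hw0' : x + y = (ζ - 1) * w 0 := by simpa using hw 0
  have hw0 : ζ - 1 ∣ w 0 := by
    obtain ⟨c, hc⟩ := h2
    rw [hc, pow_two, mul_assoc] at hw0'
    exact ⟨c, (mul_left_cancel₀ hl0 hw0').symm⟩
  -- `ζ - 1 ∤ w k` for `0 < k < p`
  have hwk : ∀ k, 0 < k → k < p → ¬ ζ - 1 ∣ w k := by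
    intro k hk0 hkp hdvd
    obtain ⟨u, hu⟩ := exists_unit_pow_sub_pow hp hζ hkp hp.pos hk0.ne'
    rw [pow_zero] at hu
    have e : (ζ - 1) * w k = (ζ - 1) * (w 0 + u * y) := by
      linear_combination -hw k + hw0' + y * hu
    have e' := mul_left_cancel₀ hl0 e
    rw [e'] at hdvd
    have h3 : ζ - 1 ∣ (u : R) * y := (dvd_add_right hw0).mp hdvd
    exact hy ((Units.dvd_mul_left).mp h3)
  -- pairwise coprimality
  have hcop : ∀ i j, i < p → j < p → i ≠ j → IsCoprime (w i) (w j) := by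
    intro i j hi hj hij
    obtain ⟨u, hu⟩ := exists_unit_pow_sub_pow hp hζ hi hj hij
    obtain ⟨a, b, hab⟩ := hxy
    have e1 : (ζ - 1) * (w i - w j) = (ζ - 1) * (u * y) := by
      linear_combination -hw i + hw j + y * hu
    have e2 : (ζ - 1) * (ζ ^ j * w i - ζ ^ i * w j) = (ζ - 1) * (-(u * x)) := by
      linear_combination -ζ ^ j * hw i + ζ ^ i * hw j - x * hu
    have e1' := mul_left_cancel₀ hl0 e1
    have e2' := mul_left_cancel₀ hl0 e2
    refine ⟨-a * (↑u⁻¹ : R) * ζ ^ j + b * (↑u⁻¹ : R), a * (↑u⁻¹ : R) * ζ ^ i - b * (↑u⁻¹ : R), ?_⟩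
    have hu1 : (↑u⁻¹ : R) * (u : R) = 1 := by simp
    linear_combination hab + (a * x + b * y) * hu1 + (b * (↑u⁻¹ : R)) * e1'
      - (a * (↑u⁻¹ : R)) * e2'
  -- the product formula
  have hprod : ∏ k ∈ range p, w k = ε * (ζ - 1) ^ (p * (m - 1)) * z ^ p := by
    have h1 : ∏ k ∈ range p, (x + ζ ^ k * y) = (ζ - 1) ^ p * ∏ k ∈ range p, w k := by
      rw [Finset.prod_congr rfl (fun k _ => hw k), Finset.prod_mul_distrib, Finset.prod_const,
        Finset.card_range]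
    rw [← pow_add_pow_eq_prod_range hζ hodd, h] at h1
    have hpm : p * m = p + p * (m - 1) := by
      obtain ⟨m', rfl⟩ : ∃ m', m = m' + 1 := ⟨m - 1, by omega⟩
      simp only [Nat.add_sub_cancel]
      ring
    rw [hpm, pow_add] at h1
    have h3 : (ζ - 1) ^ p * (ε * (ζ - 1) ^ (p * (m - 1)) * z ^ p) =
        (ζ - 1) ^ p * ∏ k ∈ range p, w k := by
      rw [← h1]; ring
    exact (mul_left_cancel₀ (pow_ne_zero _ hl0) h3).symm
  -- split off `k = 0`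
  set C := ∏ k ∈ (range p).erase 0, w k with hC
  have h0mem : 0 ∈ range p := Finset.mem_range.mpr hp.pos
  have hprod' : w 0 * C = ε * (ζ - 1) ^ (p * (m - 1)) * z ^ p := by
    rw [← hprod, hC, Finset.mul_prod_erase _ _ h0mem]
  have hlC : ¬ ζ - 1 ∣ C := by
    intro hd
    obtain ⟨k, hk, hdk⟩ := (Prime.dvd_finsetProd_iff hl _).mp hd
    rw [Finset.mem_erase, Finset.mem_range] at hk
    exact hwk k (Nat.pos_of_ne_zero hk.1) hk.2 hdk
  have hcopC : IsCoprime (ζ - 1) C := (Prime.coprime_iff_not_dvd hl).mpr hlC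
  have hdvd0 : (ζ - 1) ^ (p * (m - 1)) ∣ w 0 := by
    have h3 : (ζ - 1) ^ (p * (m - 1)) ∣ w 0 * C := by
      rw [hprod']
      exact Dvd.dvd.mul_right (Dvd.intro_left _ rfl) _
    exact (hcopC.pow_left).dvd_of_dvd_mul_right h3
  obtain ⟨w0', hw0''⟩ := hdvd0
  have hprod'' : w0' * C = ε * z ^ p := by
    have h3 : (ζ - 1) ^ (p * (m - 1)) * (w0' * C) = (ζ - 1) ^ (p * (m - 1)) * (ε * z ^ p) := by
      rw [← mul_assoc, ← hw0'', hprod']; ring
    exact mul_left_cancel₀ (pow_ne_zero _ hl0) h3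
  have hlεz : ¬ ζ - 1 ∣ (ε : R) * z ^ p := by
    intro hd
    rcases hl.dvd_or_dvd hd with h' | h'
    · exact hl.not_isUnit (isUnit_of_dvd_unit h' ε.isUnit)
    · exact hz (hl.dvd_of_dvd_pow h')
  have hlw0' : ¬ ζ - 1 ∣ w0' := fun hd => hlεz (hprod'' ▸ Dvd.dvd.mul_right hd _)
  have hm2 : 2 ≤ m := by
    by_contra hlt
    have hm1 : m = 1 := by omega
    subst hm1
    simp only [Nat.sub_self, mul_zero, pow_zero, one_mul] at hw0''
    exact hlw0' (hw0'' ▸ hw0)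
  -- the indices `1` and `p - 1`
  have h1p : 1 < p := by omega
  have hp1p : p - 1 < p := by omega
  have h1ne : 1 ≠ p - 1 := by omega
  have key : ∀ k, 0 < k → k < p → ∃ (ρ : R) (η : Rˣ), w k = η * ρ ^ p := by
    intro k hk0 hkp
    have hkmem : k ∈ (range p).erase 0 := by simp [hk0.ne', hkp]
    have hsplit : C = w k * ∏ j ∈ ((range p).erase 0).erase k, w j := by
      rw [hC, Finset.mul_prod_erase _ _ hkmem]
    have hcop1 : IsCoprime (w k) (w0' * ∏ j ∈ ((range p).erase 0).erase k, w j) := by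
      refine IsCoprime.mul_right ?_ ?_
      · have h3 := hcop k 0 hkp hp.pos hk0.ne'
        rw [hw0''] at h3
        exact h3.of_mul_right_right
      · refine IsCoprime.prod_right fun j hj => ?_
        simp only [Finset.mem_erase, Finset.mem_range] at hj
        exact hcop k j hkp hj.2.2 (Ne.symm hj.1)
    have hassoc : Associated (z ^ p) (w k * (w0' * ∏ j ∈ ((range p).erase 0).erase k, w j)) := by
      refine ⟨ε, ?_⟩
      rw [mul_comm (z ^ p), ← hprod'', hsplit]; ring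
    obtain ⟨ρ, η, hη⟩ := exists_associated_pow_of_associated_pow_mul hcop1 hassoc
    exact ⟨ρ, η, by rw [← hη]; ring⟩
  obtain ⟨ρ₁, η₁, h₁⟩ := key 1 one_pos h1p
  obtain ⟨ρ₂, η₂, h₂⟩ := key (p - 1) (by omega) hp1p
  have key0 : ∃ (ρ : R) (η : Rˣ), w0' = η * ρ ^ p := by
    have hcop0 : IsCoprime w0' C := by
      refine IsCoprime.prod_right fun j hj => ?_
      simp only [Finset.mem_erase, Finset.mem_range] at hj
      have h3 := hcop 0 j hp.pos hj.2 (Ne.symm hj.1)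
      rw [hw0''] at h3
      exact h3.of_mul_left_right
    have hassoc : Associated (z ^ p) (w0' * C) := ⟨ε, by rw [hprod'']; ring⟩
    obtain ⟨ρ, η, hη⟩ := exists_associated_pow_of_associated_pow_mul hcop0 hassoc
    exact ⟨ρ, η, by rw [← hη]; ring⟩
  obtain ⟨ρ₀, η₀, h₀⟩ := key0
  -- the linear relation
  have hζp : ζ * ζ ^ (p - 1) = 1 := by
    rw [← pow_succ', Nat.sub_add_cancel hp.one_le, hζ.pow_eq_one]
  have hrel : w 1 + ζ * w (p - 1) = (1 + ζ) * w 0 := by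
    have e : (ζ - 1) * (w 1 + ζ * w (p - 1)) = (ζ - 1) * ((1 + ζ) * w 0) := by
      have a1 := hw 1
      have a2 := hw (p - 1)
      rw [pow_one] at a1
      linear_combination -a1 - ζ * a2 + (1 + ζ) * hw0' + y * hζp
    exact mul_left_cancel₀ hl0 e
  obtain ⟨ζu, hζu⟩ : ∃ u : Rˣ, (u : R) = ζ := hζ.isUnit hp.ne_zero
  obtain ⟨su, hsu⟩ : ∃ u : Rˣ, (u : R) = 1 + ζ := by
    have h3 := hζ.geom_sum_isUnit hp.two_le (j := 2)
      ((Nat.coprime_primes Nat.prime_two hp).mpr (Ne.symm hp2))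
    rw [Finset.sum_range_succ, Finset.sum_range_one, pow_zero, pow_one] at h3
    exact h3
  set η : Rˣ := ζu * η₂ * η₁⁻¹ with hη
  set ε' : Rˣ := su * η₀ * η₁⁻¹ with hε'
  have hmain : ρ₁ ^ p + η * ρ₂ ^ p = ε' * (ζ - 1) ^ (p * (m - 1)) * ρ₀ ^ p := by
    have h3 : (η₁ : R) * (ρ₁ ^ p + η * ρ₂ ^ p) =
        η₁ * (ε' * (ζ - 1) ^ (p * (m - 1)) * ρ₀ ^ p) := by
      rw [hη, hε']
      push_cast
      rw [hζu, hsu]
      have hη₁ : (η₁ : R) * (↑η₁⁻¹ : R) = 1 := by simp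
      rw [hw0'', h₀, h₁, h₂] at hrel
      linear_combination hrel + (ζ * η₂ * ρ₂ ^ p -
        (1 + ζ) * η₀ * (ζ - 1) ^ (p * (m - 1)) * ρ₀ ^ p) * hη₁
    exact mul_left_cancel₀ η₁.ne_zero h3
  -- Kummer's lemma applies to `η`
  have hρ₂ : ¬ ζ - 1 ∣ ρ₂ := by
    intro hd
    apply hwk (p - 1) (by omega) hp1p
    rw [h₂]
    exact Dvd.dvd.mul_left (dvd_pow hd hp.ne_zero) _
  have hcopρ : IsCoprime ρ₂ (p : R) := by
    have h1 : IsCoprime (ζ - 1) ρ₂ := (Prime.coprime_iff_not_dvd hl).mpr hρ₂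
    have h2 : IsCoprime ρ₂ ((ζ - 1) ^ (p - 1)) := h1.pow_left.symm
    obtain ⟨u, hu⟩ := hpl
    rw [← hu]
    exact (isCoprime_mul_unit_right_right u.isUnit _ _).mpr h2
  obtain ⟨s, t, hst⟩ := hcopρ
  obtain ⟨n, hn⟩ := exists_int_dvd_pow_sub hp hpl hres (s * ρ₁)
  have hkum_in : (p : R) ∣ (η : R) - ((-n : ℤ) : R) := by
    have hpl' : (p : R) ∣ (ζ - 1) ^ (p * (m - 1)) := by
      refine (prime_dvd_sub_one_pow hp hpl).trans (pow_dvd_pow _ ?_)
      exact Nat.le_mul_of_pos_right p (by omega)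
    have h1 : (p : R) ∣ (s * ρ₂) ^ p - 1 := by
      have h3 : s * ρ₂ - 1 ∣ (s * ρ₂) ^ p - 1 ^ p := sub_dvd_pow_sub_pow _ _ _
      rw [one_pow] at h3
      refine Dvd.dvd.trans ?_ h3
      exact ⟨-t, by linear_combination hst⟩
    obtain ⟨c1, hc1⟩ := h1
    obtain ⟨c2, hc2⟩ := hn
    obtain ⟨c3, hc3⟩ := hpl'
    refine ⟨-(η : R) * c1 + s ^ p * (ε' * c3 * ρ₀ ^ p) - c2, ?_⟩
    push_cast
    rw [hc3] at hmain
    linear_combination (-(η : R)) * hc1 + s ^ p * hmain - hc2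
  obtain ⟨ξ, hξ⟩ := hkum η (-n) hkum_in
  refine ⟨hm2, ρ₁, ξ * ρ₂, ρ₀, ε', ?_, ?_, ?_⟩
  · have h12 : IsCoprime (w 1) (w (p - 1)) := hcop 1 (p - 1) h1p hp1p h1ne
    rw [h₁, h₂] at h12
    have h3 : IsCoprime (ρ₁ ^ p) (ρ₂ ^ p) := (h12.of_mul_left_right).of_mul_right_right
    have h4 : IsCoprime ρ₁ ρ₂ := (IsCoprime.pow_iff hp.pos hp.pos).mp h3
    exact (isCoprime_mul_unit_left_right ξ.isUnit _ _).mpr h4
  · intro hd
    apply hlw0'
    rw [h₀]
    exact Dvd.dvd.mul_left (dvd_pow hd hp.ne_zero) _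
  · rw [mul_pow, ← Units.val_pow_eq_pow_val, ← hξ]
    exact hmain

/-- **Kummer's descent**, abstract form. -/
theorem no_solution_abstract (hp : p.Prime) (hp2 : p ≠ 2) (hζ : IsPrimitiveRoot ζ p)
    (hl : Prime (ζ - 1)) (hpl : Associated ((ζ - 1) ^ (p - 1)) (p : R))
    (hres : ∀ x : R, ∃ n : ℤ, ζ - 1 ∣ x - n)
    (hkum : ∀ (u : Rˣ) (n : ℤ), (p : R) ∣ (u : R) - n → ∃ v : Rˣ, u = v ^ p) :
    ∀ (m : ℕ), 1 ≤ m → ∀ (x y z : R) (ε : Rˣ), IsCoprime x y → ¬ ζ - 1 ∣ z →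
      x ^ p + y ^ p = ε * (ζ - 1) ^ (p * m) * z ^ p → False := by
  intro m
  induction m with
  | zero => intro h; omega
  | succ m ih =>
    intro hm x y z ε hxy hz h
    have hdvd : ζ - 1 ∣ x ^ p + y ^ p := by
      rw [h]
      refine Dvd.dvd.mul_right (Dvd.dvd.mul_left (dvd_pow_self _ ?_) _) _
      exact (Nat.mul_pos hp.pos (by omega)).ne'
    have hxy1 := sub_one_dvd_add hp hl hpl hdvd
    have hy : ¬ ζ - 1 ∣ y := by
      intro hy
      have hx : ζ - 1 ∣ x := by simpa using dvd_sub hxy1 hy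
      exact hl.not_isUnit (hxy.isUnit_of_dvd' hx hy)
    obtain ⟨k, hk⟩ := exists_sq_dvd hp hl hpl hres hy hxy1
    have hζk : IsUnit (ζ ^ k) := (hζ.isUnit hp.ne_zero).pow k
    have hxy' : IsCoprime x (ζ ^ k * y) := (isCoprime_mul_unit_left_right hζk _ _).mpr hxy
    have h' : x ^ p + (ζ ^ k * y) ^ p = ε * (ζ - 1) ^ (p * (m + 1)) * z ^ p := by
      rw [mul_pow, ← pow_mul, mul_comm k p, pow_mul, hζ.pow_eq_one, one_pow, one_mul, h]
    obtain ⟨hm2, x', y', z', ε', hc', hz', he'⟩ :=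
      step hp hp2 hζ hl hpl hres hkum hm hxy' hz h' hk
    exact ih (by omega) x' y' z' ε' hc' hz' (by simpa using he')

end Abstract

/-! ### The cyclotomic field -/

section Cyclotomic

open NumberField

variable {p : ℕ} [hp : Fact p.Prime] {K : Type*} [Field K] [NumberField K]
  [IsCyclotomicExtension {p} ℚ K] {ζ : K} (hζ : IsPrimitiveRoot ζ p)

/-- Every algebraic integer of `ℚ(ζ_p)` is congruent to a rational integer modulo `ζ - 1`. -/
theorem exists_int_sub_dvd (hp2 : p ≠ 2) (x : 𝓞 K) : ∃ n : ℤ, hζ.toInteger - 1 ∣ x - n := by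
  classical
  set I : Ideal (𝓞 K) := Ideal.span {hζ.toInteger - 1} with hI
  have hcard : Nat.card (𝓞 K ⧸ I) = p := by
    have h1 : Ideal.absNorm I = p := by
      rw [hI, Ideal.absNorm_span_singleton, hζ.norm_toInteger_sub_one_of_prime_ne_two' hp2,
        Int.natAbs_natCast]
    exact h1
  let f : ZMod p → 𝓞 K ⧸ I := fun a => Ideal.Quotient.mk I (((a.val : ℤ) : ℤ) : 𝓞 K)
  have hf : Function.Injective f := by
    intro a b hab
    simp only [f] at hab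
    rw [Ideal.Quotient.eq, Ideal.mem_span_singleton, ← Int.cast_sub,
      IsCyclotomicExtension.Rat.zeta_sub_one_dvd_intCast_iff'] at hab
    have h1 : ((a.val : ℤ) : ZMod p) = ((b.val : ℤ) : ZMod p) :=
      (ZMod.intCast_eq_intCast_iff_dvd_sub _ _ _).mpr (by simpa using (dvd_neg.mpr hab))
    simpa using h1
  have hfin : Finite (𝓞 K ⧸ I) := Nat.finite_of_card_ne_zero (by rw [hcard]; exact hp.out.ne_zero)
  have hsurj : Function.Surjective f := by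
    have := Fintype.ofFinite (𝓞 K ⧸ I)
    refine ((Fintype.bijective_iff_injective_and_card f).mpr ⟨hf, ?_⟩).2
    rw [ZMod.card, ← Nat.card_eq_fintype_card, hcard]
  obtain ⟨a, ha⟩ := hsurj (Ideal.Quotient.mk I x)
  refine ⟨a.val, ?_⟩
  rw [← Ideal.mem_span_singleton, ← Ideal.Quotient.eq]
  exact ha.symm

/-- **Kummer's descent** in `𝓞 K`, `K = ℚ(ζ_p)` with class number one. -/
theorem no_solution (hp2 : p ≠ 2) (hpid : IsPrincipalIdealRing (𝓞 K))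
    (hkum : ∀ (u : (𝓞 K)ˣ) (a : ℤ), (p : 𝓞 K) ∣ (u : 𝓞 K) - (a : 𝓞 K) → ∃ v : (𝓞 K)ˣ, u = v ^ p)
    (m : ℕ) (hm : 1 ≤ m) (x y z : 𝓞 K) (ε : (𝓞 K)ˣ) (hxy : IsCoprime x y)
    (hz : ¬ (hζ.toInteger - 1) ∣ z)
    (h : x ^ p + y ^ p = ε * (hζ.toInteger - 1) ^ (p * m) * z ^ p) : False :=
  no_solution_abstract hp.out hp2 hζ.toInteger_isPrimitiveRoot hζ.zeta_sub_one_prime'
    (IsCyclotomicExtension.Rat.associated_zeta_sub_one_pow_prime p hζ) (exists_int_sub_dvd hζ hp2) hkum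
    m hm x y z ε hxy hz h

include hζ in
/-- **The second case of Fermat's Last Theorem** for a prime `p` such that `ℤ[ζ_p]` is a PID
and Kummer's lemma holds. -/
theorem caseII (hp2 : p ≠ 2) (hpid : IsPrincipalIdealRing (𝓞 K))
    (hkum : ∀ (u : (𝓞 K)ˣ) (a : ℤ), (p : 𝓞 K) ∣ (u : 𝓞 K) - (a : 𝓞 K) → ∃ v : (𝓞 K)ˣ, u = v ^ p)
    {x y z : ℤ} (hxy : IsCoprime x y) (hz : z ≠ 0) (hpz : (p : ℤ) ∣ z)
    (h : x ^ p + y ^ p = z ^ p) : False := by
  have hpZ : Prime (p : ℤ) := Nat.prime_iff_prime_int.mp hp.out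
  -- `z = p ^ k * z'`
  obtain ⟨k, z', hz', hzk⟩ : ∃ (k : ℕ) (z' : ℤ), ¬ (p : ℤ) ∣ z' ∧ z = (p : ℤ) ^ k * z' := by
    have hfin : FiniteMultiplicity (p : ℤ) z :=
      Int.finiteMultiplicity_iff.mpr ⟨by
        have := hp.out.one_lt
        intro h1
        have : (p : ℤ).natAbs = p := Int.natAbs_natCast p
        omega, hz⟩
    obtain ⟨c, hc1, hc2⟩ := hfin.exists_eq_pow_mul_and_not_dvd
    exact ⟨_, c, hc2, hc1⟩
  have hk : 1 ≤ k := by
    rcases Nat.eq_zero_or_pos k with h0 | h0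
    · subst h0
      rw [pow_zero, one_mul] at hzk
      exact absurd (hzk ▸ hpz) hz'
    · exact h0
  obtain ⟨u, hu⟩ := IsCyclotomicExtension.Rat.associated_zeta_sub_one_pow_prime p hζ
  have hp1 : 1 ≤ p - 1 := by have := hp.out.two_le; omega
  refine no_solution hζ hp2 hpid hkum ((p - 1) * k) (Nat.mul_pos (by omega) hk) (x : 𝓞 K)
    (y : 𝓞 K) (z' : 𝓞 K) (u ^ (k * p)) ?_ ?_ ?_
  · exact hxy.map (Int.castRingHom (𝓞 K))
  · rwa [IsCyclotomicExtension.Rat.zeta_sub_one_dvd_intCast_iff']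
  · have h1 : ((x : 𝓞 K)) ^ p + (y : 𝓞 K) ^ p = ((z : ℤ) : 𝓞 K) ^ p := by
      exact_mod_cast congrArg (Int.cast : ℤ → 𝓞 K) h
    rw [h1, hzk]
    push_cast
    rw [← hu]
    ring

end Cyclotomic

end Fermat.Agent.S10.CaseII
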