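/-
S10 / S11 (FLT for the exponents 5, 7, 11, 13 via Kummer): the norm argument of Kummer's lemma and
its reduction to the non-existence of unramified extensions.

For `K = ℚ(ζ_p)`, `p` an odd prime, `λ = ζ - 1`:
* `exists_int_sub_dvd` : every element of `𝓞 K` is congruent to a rational integer modulo `λ`;
* `zeta_sub_one_dvd_smul_sub` : `σ x ≡ x` modulo `λ` for every `σ ∈ Gal(K/ℚ)`;
* `zeta_sub_one_pow_dvd` (L3a) : a unit `u` congruent to a rational integer modulo `p` satisfies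
  `u ^ (p - 1) ≡ 1` modulo `λ ^ p`;
* `not_unramifiedEverywhere` : if `𝓞 K` is a principal ideal domain, `K` has no everywhere
  unramified Galois extension of degree `p` (from `NormIndex.normClasses_ne_top`);
* `exists_pow_eq_of_unramified`, `exists_pow_eq_of_unramified'` (L3c) and `kummer_of_unramified`,
  `kummer_of_unramified'` : Kummer's lemma relative to the statement that the Kummer extension of a
  unit congruent to `1` modulo `λ ^ p` is unramified everywhere.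
-/
import Mathlib
import Fermat.Agent.S14.NormIndex

namespace Fermat.Agent.S10.KummerNorm

open NumberField Polynomial Fermat.Agent.S14

universe u

theorem exists_prod_one_add_mul {R ι : Type*} [CommRing R] (s : Finset ι) (a : R) (f : ι → R) :
    ∃ r : R, ∏ i ∈ s, (1 + a * f i) = 1 + a * ∑ i ∈ s, f i + a ^ 2 * r := by
  classical
  induction s using Finset.induction_on with
  | empty => exact ⟨0, by simp⟩
  | insert i s hi ih =>
    obtain ⟨r, hr⟩ := ih
    refine ⟨r + f i * ∑ j ∈ s, f j + a * f i * r, ?_⟩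
    rw [Finset.prod_insert hi, Finset.sum_insert hi, hr]
    ring

theorem prod_smul_eq_norm {K : Type u} [Field K] [NumberField K] [IsGalois ℚ K] (x : 𝓞 K) :
    ∏ σ : Gal(K/ℚ), σ • x = ((Algebra.norm ℤ x : ℤ) : 𝓞 K) := by
  apply RingOfIntegers.ext
  have h := Algebra.norm_eq_prod_automorphisms ℚ (x : K)
  rw [← Algebra.coe_norm_int] at h
  push_cast
  have h2 : (algebraMap ℚ K) ((Algebra.norm ℤ x : ℤ) : ℚ) = (((Algebra.norm ℤ x : ℤ) : 𝓞 K) : K) := by
    simp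
  rw [← h2, h]
  rfl

variable {p : ℕ} [hp : Fact p.Prime] {K : Type u} [Field K] [NumberField K]
  [IsCyclotomicExtension {p} ℚ K]

/-- every algebraic integer is congruent to a rational integer modulo `ζ - 1`. -/
theorem exists_int_sub_dvd {ζ : K} (hζ : IsPrimitiveRoot ζ p) (x : 𝓞 K) :
    ∃ m : ℤ, hζ.toInteger - 1 ∣ x - m := by
  obtain ⟨f, hf⟩ := hζ.subOneIntegralPowerBasis.exists_eq_aeval' x
  have hgen : hζ.subOneIntegralPowerBasis.gen = hζ.toInteger - 1 := by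
    rw [IsPrimitiveRoot.subOneIntegralPowerBasis_gen]
    rfl
  rw [hgen] at hf
  refine ⟨f.coeff 0, ?_⟩
  obtain ⟨g, hg⟩ := Polynomial.X_dvd_sub_C (p := f)
  refine ⟨aeval (hζ.toInteger - 1) g, ?_⟩
  have := congrArg (aeval (hζ.toInteger - 1)) hg
  simp only [map_sub, aeval_C, map_mul, aeval_X] at this
  rw [hf, ← this]
  simp

omit [IsCyclotomicExtension {p} ℚ K] in
theorem zeta_sub_one_dvd_smul_zeta_sub_one {ζ : K} (hζ : IsPrimitiveRoot ζ p) (σ : Gal(K/ℚ)) :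
    hζ.toInteger - 1 ∣ σ • (hζ.toInteger - 1) := by
  have h1 : (σ ζ) ^ p = 1 := by rw [← map_pow, hζ.pow_eq_one, map_one]
  obtain ⟨k, -, hk⟩ := hζ.eq_pow_of_pow_eq_one h1
  have h2 : σ • (hζ.toInteger - 1) = hζ.toInteger ^ k - 1 := by
    apply RingOfIntegers.ext
    show σ ((hζ.toInteger - 1 : 𝓞 K) : K) = _
    push_cast
    rw [map_sub, map_one]
    exact congrArg (· - 1) hk.symm
  rw [h2]
  simpa using sub_dvd_pow_sub_pow hζ.toInteger 1 k

theorem zeta_sub_one_dvd_smul_sub {ζ : K} (hζ : IsPrimitiveRoot ζ p) (σ : Gal(K/ℚ)) (x : 𝓞 K) :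
    hζ.toInteger - 1 ∣ σ • x - x := by
  obtain ⟨m, y, hy⟩ := exists_int_sub_dvd hζ x
  have hx : x = m + (hζ.toInteger - 1) * y := by rw [← hy]; ring
  obtain ⟨z, hz⟩ := zeta_sub_one_dvd_smul_zeta_sub_one hζ σ
  have hm : σ • (m : 𝓞 K) = m := by
    apply RingOfIntegers.ext
    show σ ((m : 𝓞 K) : K) = _
    simp
  refine ⟨z * σ • y - y, ?_⟩
  rw [hx, smul_add, smul_mul', hm, hz]
  ring


/-- (L3a) a unit congruent to a rational integer modulo `p` has its `(p-1)`-st power congruent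
to `1` modulo `(ζ - 1) ^ p`. -/
theorem zeta_sub_one_pow_dvd (hp2 : p ≠ 2) {ζ : K} (hζ : IsPrimitiveRoot ζ p) (u : (𝓞 K)ˣ) (n : ℤ)
    (h : (p : 𝓞 K) ∣ (u : 𝓞 K) - n) :
    (hζ.toInteger - 1) ^ p ∣ ((u ^ (p - 1) : (𝓞 K)ˣ) : 𝓞 K) - 1 := by
  have : IsGalois ℚ K := IsCyclotomicExtension.isGalois {p} ℚ K
  have hlprime : Prime (hζ.toInteger - 1) := hζ.zeta_sub_one_prime'
  have hlp : hζ.toInteger - 1 ∣ (p : 𝓞 K) := hζ.toInteger_sub_one_dvd_prime'
  have hass : Associated ((hζ.toInteger - 1) ^ (p - 1)) (p : 𝓞 K) :=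
    IsCyclotomicExtension.Rat.associated_zeta_sub_one_pow_prime p hζ
  -- p ∤ n
  have hpn : ¬ (p : ℤ) ∣ n := by
    intro hd
    have h1 : (p : 𝓞 K) ∣ (n : 𝓞 K) := by
      obtain ⟨k, rfl⟩ := hd
      exact ⟨k, by push_cast; rfl⟩
    have h2 : (p : 𝓞 K) ∣ (u : 𝓞 K) := by
      have := dvd_add h h1
      simpa using this
    exact hlprime.not_isUnit (isUnit_of_dvd_unit (hlp.trans h2) u.isUnit)
  have hn1 : (p : ℤ) ∣ n ^ (p - 1) - 1 := by
    have hcop : IsCoprime n p := by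
      rw [isCoprime_comm]
      exact (Nat.prime_iff_prime_int.mp hp.out).coprime_iff_not_dvd.mpr hpn
    exact (Int.ModEq.pow_card_sub_one_eq_one hp.out hcop).symm.dvd
  obtain ⟨t, ht⟩ : (p : 𝓞 K) ∣ ((u ^ (p - 1) : (𝓞 K)ˣ) : 𝓞 K) - 1 := by
    have h3 : (p : 𝓞 K) ∣ (u : 𝓞 K) ^ (p - 1) - (n : 𝓞 K) ^ (p - 1) :=
      h.trans (sub_dvd_pow_sub_pow _ _ _)
    have h4 : (p : 𝓞 K) ∣ (n : 𝓞 K) ^ (p - 1) - 1 := by
      obtain ⟨k, hk⟩ := hn1
      exact ⟨k, by have := congrArg (Int.cast : ℤ → 𝓞 K) hk; push_cast at this; exact this⟩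
    have := dvd_add h3 h4
    simpa using this
  have hnorm : Algebra.norm ℤ ((u ^ (p - 1) : (𝓞 K)ˣ) : 𝓞 K) = 1 := by
    have h5 : IsUnit (Algebra.norm ℤ (u : 𝓞 K)) := u.isUnit.map (Algebra.norm ℤ)
    obtain ⟨k, hk⟩ := hp.out.even_sub_one hp2
    rw [Units.val_pow_eq_pow_val, map_pow, hk, ← two_mul, pow_mul]
    rcases Int.isUnit_iff.mp h5 with h6 | h6 <;> rw [h6] <;> simp
  have hprod := prod_smul_eq_norm ((u ^ (p - 1) : (𝓞 K)ˣ) : 𝓞 K)
  rw [hnorm, Int.cast_one] at hprod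
  have hu' : ((u ^ (p - 1) : (𝓞 K)ˣ) : 𝓞 K) = 1 + p * t := by rw [← ht]; ring
  obtain ⟨r, hr⟩ := exists_prod_one_add_mul (Finset.univ : Finset Gal(K/ℚ)) (p : 𝓞 K)
    (fun σ => σ • t)
  have hsm : ∀ σ : Gal(K/ℚ), σ • ((u ^ (p - 1) : (𝓞 K)ˣ) : 𝓞 K) = 1 + p * σ • t := by
    intro σ
    rw [hu', smul_add, smul_one, smul_mul']
    congr 2
    apply RingOfIntegers.ext
    show σ (((p : ℕ) : 𝓞 K) : K) = _
    simp
  simp only [hsm] at hprod
  rw [hprod] at hr
  have hp0 : (p : 𝓞 K) ≠ 0 := by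
    exact_mod_cast hp.out.ne_zero
  have hsum : ∑ σ : Gal(K/ℚ), σ • t = - (p * r) := by
    apply mul_left_cancel₀ hp0
    linear_combination -hr
  have hcard : Fintype.card Gal(K/ℚ) = p - 1 := by
    rw [← Nat.card_eq_fintype_card, IsGalois.card_aut_eq_finrank,
      IsCyclotomicExtension.Rat.finrank p K, Nat.totient_prime hp.out]
  have h7 : hζ.toInteger - 1 ∣ ∑ σ : Gal(K/ℚ), (σ • t - t) :=
    Finset.dvd_sum (fun σ _ => zeta_sub_one_dvd_smul_sub hζ σ t)
  rw [Finset.sum_sub_distrib, hsum, Finset.sum_const, Finset.card_univ, hcard] at h7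
  have h8 : hζ.toInteger - 1 ∣ t := by
    have h9 : hζ.toInteger - 1 ∣ (p : 𝓞 K) * (r + t) := Dvd.dvd.mul_right hlp _
    have h10 := dvd_add h7 h9
    have h11 : -(↑p * r) - (p - 1) • t + ↑p * (r + t) = t := by
      rw [nsmul_eq_mul, Nat.cast_sub hp.out.one_le]
      push_cast
      ring
    rwa [h11] at h10
  obtain ⟨s, hs⟩ := h8
  obtain ⟨w, hw⟩ := hass
  refine ⟨w * s, ?_⟩
  rw [ht, hs, ← hw]
  have h12 : (hζ.toInteger - 1) ^ p = (hζ.toInteger - 1) ^ (p - 1) * (hζ.toInteger - 1) := by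
    rw [← pow_succ, Nat.sub_add_cancel hp.out.one_le]
  rw [h12]
  ring

/-- a `p`-th root in `K` of a unit of `𝓞 K` is a unit of `𝓞 K`. -/
theorem exists_unit_pow_eq_of_field {K : Type u} [Field K] [NumberField K] {p : ℕ} (hp0 : p ≠ 0)
    (a : (𝓞 K)ˣ) (b : K) (hb : b ^ p = ((a : 𝓞 K) : K)) : ∃ v : (𝓞 K)ˣ, a = v ^ p := by
  have hbint : IsIntegral ℤ b := by
    apply IsIntegral.of_pow (Nat.pos_of_ne_zero hp0)
    rw [hb]
    exact (a : 𝓞 K).2
  let b' : 𝓞 K := ⟨b, hbint⟩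
  have hb' : b' ^ p = (a : 𝓞 K) := by
    apply RingOfIntegers.ext
    push_cast
    exact hb
  have hu : IsUnit b' := by
    rw [← isUnit_pow_iff hp0, hb']
    exact a.isUnit
  refine ⟨hu.unit, ?_⟩
  apply Units.ext
  rw [Units.val_pow_eq_pow_val, IsUnit.unit_spec, hb']

/-- `ℚ(ζ_p)` of class number one (`p` odd) has no everywhere unramified Galois extension of
degree `p`. -/
theorem not_unramifiedEverywhere (hp2 : p ≠ 2) [IsPrincipalIdealRing (𝓞 K)] (L : Type*) [Field L]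
    [NumberField L] [Algebra K L] [IsGalois K L] (hdeg : Module.finrank K L = p)
    (hunr : UnramifiedEverywhere K L) : False := by
  have hp3 : 2 < p := lt_of_le_of_ne hp.out.two_le (Ne.symm hp2)
  have hK : IsTotallyComplex K := IsCyclotomicExtension.Rat.isTotallyComplex K hp3
  apply NormIndex.normClasses_ne_top hp.out hdeg hunr hK
  rw [eq_top_iff]
  intro c _
  have h1 : Nat.card (ClassGroup (𝓞 K)) = 1 := by
    rw [@Nat.card_eq_fintype_card _ instFintypeClassGroupOfIsPrincipalIdealRing]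
    exact card_classGroup_eq_one
  have h3 : Subsingleton (ClassGroup (𝓞 K)) := Finite.card_le_one_iff_subsingleton.mp h1.le
  have h2 : c = 1 := Subsingleton.elim _ _
  rw [h2]
  exact one_mem _

/-- (L3c), splitting field form: if the Kummer extension `K(a^(1/p))` of `K = ℚ(ζ_p)` is
unramified everywhere and `𝓞 K` is a principal ideal domain, then the unit `a` is a `p`-th
power. -/
theorem exists_pow_eq_of_unramified (hp2 : p ≠ 2) [IsPrincipalIdealRing (𝓞 K)] (a : (𝓞 K)ˣ)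
    (hunr : ∀ (L : Type u) [Field L] [NumberField L] [Algebra K L]
      [IsSplittingField K L (X ^ p - C ((a : 𝓞 K) : K))], UnramifiedEverywhere K L) :
    ∃ v : (𝓞 K)ˣ, a = v ^ p := by
  by_contra hcon
  have hirr : ∀ b : K, b ^ p ≠ ((a : 𝓞 K) : K) := fun b hb =>
    hcon (exists_unit_pow_eq_of_field hp.out.ne_zero a b hb)
  have hirr' : Irreducible (X ^ p - C ((a : 𝓞 K) : K)) :=
    X_pow_sub_C_irreducible_of_prime hp.out hirr
  have : Fact (Irreducible (X ^ p - C ((a : 𝓞 K) : K))) := ⟨hirr'⟩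
  have hprim : (primitiveRoots p K).Nonempty :=
    ⟨IsCyclotomicExtension.zeta p ℚ K,
      (mem_primitiveRoots hp.out.pos).mpr (IsCyclotomicExtension.zeta_spec p ℚ K)⟩
  have : Module.Finite K (AdjoinRoot (X ^ p - C ((a : 𝓞 K) : K))) :=
    (AdjoinRoot.powerBasis hirr'.ne_zero).finite
  have : NumberField (AdjoinRoot (X ^ p - C ((a : 𝓞 K) : K))) :=
    NumberField.of_module_finite K _
  have : IsSplittingField K (AdjoinRoot (X ^ p - C ((a : 𝓞 K) : K)))
      (X ^ p - C ((a : 𝓞 K) : K)) :=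
    isSplittingField_AdjoinRoot_X_pow_sub_C hprim hirr'
  have : IsGalois K (AdjoinRoot (X ^ p - C ((a : 𝓞 K) : K))) :=
    isGalois_of_isSplittingField_X_pow_sub_C hprim hirr' _
  have hdeg : Module.finrank K (AdjoinRoot (X ^ p - C ((a : 𝓞 K) : K))) = p :=
    finrank_of_isSplittingField_X_pow_sub_C hprim hirr' _
  exact not_unramifiedEverywhere hp2 _ hdeg (hunr (AdjoinRoot (X ^ p - C ((a : 𝓞 K) : K))))

/-- (L3c), generator form. -/
theorem exists_pow_eq_of_unramified' (hp2 : p ≠ 2) [IsPrincipalIdealRing (𝓞 K)] (a : (𝓞 K)ˣ)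
    (hunr : ∀ (L : Type u) [Field L] [NumberField L] [Algebra K L] (α : L),
      α ^ p = algebraMap K L ((a : 𝓞 K) : K) → IntermediateField.adjoin K {α} = ⊤ →
      UnramifiedEverywhere K L) :
    ∃ v : (𝓞 K)ˣ, a = v ^ p := by
  by_contra hcon
  have hirr : ∀ b : K, b ^ p ≠ ((a : 𝓞 K) : K) := fun b hb =>
    hcon (exists_unit_pow_eq_of_field hp.out.ne_zero a b hb)
  have hirr' : Irreducible (X ^ p - C ((a : 𝓞 K) : K)) :=
    X_pow_sub_C_irreducible_of_prime hp.out hirr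
  have : Fact (Irreducible (X ^ p - C ((a : 𝓞 K) : K))) := ⟨hirr'⟩
  have hprim : (primitiveRoots p K).Nonempty :=
    ⟨IsCyclotomicExtension.zeta p ℚ K,
      (mem_primitiveRoots hp.out.pos).mpr (IsCyclotomicExtension.zeta_spec p ℚ K)⟩
  have : Module.Finite K (AdjoinRoot (X ^ p - C ((a : 𝓞 K) : K))) :=
    (AdjoinRoot.powerBasis hirr'.ne_zero).finite
  have : NumberField (AdjoinRoot (X ^ p - C ((a : 𝓞 K) : K))) :=
    NumberField.of_module_finite K _
  have : IsSplittingField K (AdjoinRoot (X ^ p - C ((a : 𝓞 K) : K)))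
      (X ^ p - C ((a : 𝓞 K) : K)) :=
    isSplittingField_AdjoinRoot_X_pow_sub_C hprim hirr'
  have : IsGalois K (AdjoinRoot (X ^ p - C ((a : 𝓞 K) : K))) :=
    isGalois_of_isSplittingField_X_pow_sub_C hprim hirr' _
  have hdeg : Module.finrank K (AdjoinRoot (X ^ p - C ((a : 𝓞 K) : K))) = p :=
    finrank_of_isSplittingField_X_pow_sub_C hprim hirr' _
  refine not_unramifiedEverywhere hp2 _ hdeg
    (hunr (AdjoinRoot (X ^ p - C ((a : 𝓞 K) : K)))
      (AdjoinRoot.root (X ^ p - C ((a : 𝓞 K) : K))) ?_ ?_)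
  · exact root_X_pow_sub_C_pow p _
  · rw [eq_top_iff]
    intro x _
    have h1 : x ∈ Algebra.adjoin K {AdjoinRoot.root (X ^ p - C ((a : 𝓞 K) : K))} := by
      rw [AdjoinRoot.adjoinRoot_eq_top]
      exact Algebra.mem_top
    exact IntermediateField.algebra_adjoin_le_adjoin K _ h1

/-- Kummer's lemma for `ℚ(ζ_p)` of class number one, relative to the statement (L3b) that the
Kummer extension of a unit congruent to `1` modulo `(ζ - 1) ^ p` is unramified everywhere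
(splitting field form). -/
theorem kummer_of_unramified (hp2 : p ≠ 2) [IsPrincipalIdealRing (𝓞 K)] {ζ : K}
    (hζ : IsPrimitiveRoot ζ p)
    (hL3b : ∀ a : (𝓞 K)ˣ, (hζ.toInteger - 1) ^ p ∣ (a : 𝓞 K) - 1 →
      ∀ (L : Type u) [Field L] [NumberField L] [Algebra K L]
        [IsSplittingField K L (X ^ p - C ((a : 𝓞 K) : K))], UnramifiedEverywhere K L)
    (u : (𝓞 K)ˣ) (n : ℤ) (h : (p : 𝓞 K) ∣ (u : 𝓞 K) - n) : ∃ v : (𝓞 K)ˣ, u = v ^ p := by
  obtain ⟨w, hw⟩ := exists_pow_eq_of_unramified hp2 (u ^ (p - 1))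
    (hL3b _ (zeta_sub_one_pow_dvd hp2 hζ u n h))
  refine ⟨u * w⁻¹, ?_⟩
  have hp1 : p - 1 + 1 = p := Nat.sub_add_cancel hp.out.one_le
  rw [mul_pow, inv_pow, ← hw, eq_mul_inv_iff_mul_eq, ← pow_succ', hp1]

/-- Kummer's lemma for `ℚ(ζ_p)` of class number one, relative to (L3b) in generator form. -/
theorem kummer_of_unramified' (hp2 : p ≠ 2) [IsPrincipalIdealRing (𝓞 K)] {ζ : K}
    (hζ : IsPrimitiveRoot ζ p)
    (hL3b : ∀ a : (𝓞 K)ˣ, (hζ.toInteger - 1) ^ p ∣ (a : 𝓞 K) - 1 →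
      ∀ (L : Type u) [Field L] [NumberField L] [Algebra K L] (α : L),
        α ^ p = algebraMap K L ((a : 𝓞 K) : K) → IntermediateField.adjoin K {α} = ⊤ →
        UnramifiedEverywhere K L)
    (u : (𝓞 K)ˣ) (n : ℤ) (h : (p : 𝓞 K) ∣ (u : 𝓞 K) - n) : ∃ v : (𝓞 K)ˣ, u = v ^ p := by
  obtain ⟨w, hw⟩ := exists_pow_eq_of_unramified' hp2 (u ^ (p - 1))
    (hL3b _ (zeta_sub_one_pow_dvd hp2 hζ u n h))
  refine ⟨u * w⁻¹, ?_⟩
  have hp1 : p - 1 + 1 = p := Nat.sub_add_cancel hp.out.one_le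
  rw [mul_pow, inv_pow, ← hw, eq_mul_inv_iff_mul_eq, ← pow_succ', hp1]

end Fermat.Agent.S10.KummerNorm
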