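import Mathlib
import Fermat.Agent.S14.Defs

/-!
# S10/S11 (Kummer route), leaf L3b: the Kummer extension `K(u^(1/p)) / K` is unramified

`K = ℚ(ζ_p)`, `λ = ζ - 1`, `u` a unit of `𝓞 K` with `u ≡ 1 mod λ ^ p`, `L` a splitting field of
`X ^ p - u` over `K`.  Then `L / K` is unramified at every finite prime
(`unramifiedEverywhere`).

Proof: let `α ∈ L` be a root of `X ^ p - u` and `β = (α - 1) / λ`.  Then `β` is a root of the
monic polynomial `G ∈ (𝓞 K)[X]` lifting `(X + λ⁻¹) ^ p - u / λ ^ p` (the coefficients are integral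
since `λ ^ (p - 1) ∼ p` and `λ ^ p ∣ u - 1`), `L = K(β)`, and
`G'(β) = (p / λ ^ (p - 1)) α ^ (p - 1)` is a unit of `𝓞 L`.  As the minimal polynomial `m` of `β`
over `𝓞 K` divides `G`, `m'(β)` is a unit too; it lies in the different ideal, which is
therefore trivial.  No irreducibility of `X ^ p - u` is needed.
-/

set_option autoImplicit false
set_option linter.unusedSectionVars false
set_option linter.style.haveILetI false

namespace Fermat.Agent.S10.KummerUnram

open NumberField Polynomial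

section generic

variable {K L : Type*} [Field K] [NumberField K] [Field L] [NumberField L] [Algebra K L]

/-- If `x ∈ 𝓞 L` generates `L / K` and is a root of some `G ∈ (𝓞 K)[X]` whose derivative at `x`
is a unit, then the different ideal of `𝓞 L / 𝓞 K` is trivial. -/
theorem differentIdeal_eq_top_of_isUnit (x : 𝓞 L)
    (hx : Algebra.adjoin K {algebraMap (𝓞 L) L x} = ⊤) (G : (𝓞 K)[X]) (hG : aeval x G = 0)
    (hG' : IsUnit (aeval x (derivative G))) : differentIdeal (𝓞 K) (𝓞 L) = ⊤ := by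
  have hint : IsIntegral (𝓞 K) x := Algebra.IsIntegral.isIntegral x
  obtain ⟨h, hh⟩ := minpoly.isIntegrallyClosed_dvd hint hG
  have hder : aeval x (derivative G) =
      aeval x (derivative (minpoly (𝓞 K) x)) * aeval x h := by
    rw [hh, derivative_mul, map_add, map_mul, map_mul, minpoly.aeval, zero_mul, add_zero]
  rw [hder] at hG'
  have hunit : IsUnit (aeval x (derivative (minpoly (𝓞 K) x))) := isUnit_of_mul_isUnit_left hG'
  exact Ideal.eq_top_of_isUnit_mem _ (aeval_derivative_mem_differentIdeal (𝓞 K) K L x hx) hunit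

/-- If the different ideal is trivial, the extension is unramified everywhere. -/
theorem unramifiedEverywhere_of_differentIdeal_eq_top
    (h : differentIdeal (𝓞 K) (𝓞 L) = ⊤) : Fermat.Agent.S14.UnramifiedEverywhere K L := by
  intro 𝔔 h𝔔 _
  letI : Algebra (FractionRing (𝓞 K)) (FractionRing (𝓞 L)) := FractionRing.liftAlgebra _ _
  haveI := h𝔔
  have hnd : ¬ 𝔔 ∣ differentIdeal (𝓞 K) (𝓞 L) := by
    rw [h, Ideal.dvd_iff_le, top_le_iff]
    exact h𝔔.ne_top
  have : Algebra.IsUnramifiedAt (𝓞 K) 𝔔 := not_dvd_differentIdeal_iff.mp hnd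
  exact Ideal.ramificationIdx_eq_one _ _

end generic

section poly

variable {p : ℕ} [Fact p.Prime] {K : Type*} [Field K] [NumberField K]
  [IsCyclotomicExtension {p} ℚ K] {ζ : K}

theorem zeta_sub_one_ne_zero (hζ : IsPrimitiveRoot ζ p) : (ζ - 1 : K) ≠ 0 := by
  have h1 : (1 : ℕ) < p := (Fact.out : p.Prime).one_lt
  exact sub_ne_zero.mpr (hζ.ne_one h1)

/-- The polynomial `(X + λ⁻¹) ^ p - u / λ ^ p` is monic with integral coefficients. -/
theorem exists_monic_lift (hζ : IsPrimitiveRoot ζ p) (u : 𝓞 K)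
    (hu : (hζ.toInteger - 1) ^ p ∣ u - 1) :
    ∃ G : (𝓞 K)[X], G.Monic ∧ G.map (algebraMap (𝓞 K) K) =
      (X + C ((ζ - 1 : K)⁻¹)) ^ p - C ((u : K) / (ζ - 1) ^ p) := by
  have hp : p.Prime := Fact.out
  have hl0 : (ζ - 1 : K) ≠ 0 := zeta_sub_one_ne_zero hζ
  have hlam : algebraMap (𝓞 K) K (hζ.toInteger - 1) = ζ - 1 := by
    rw [map_sub, map_one]
    rfl
  obtain ⟨ε, hε⟩ := IsCyclotomicExtension.Rat.associated_zeta_sub_one_pow_prime p hζ
  obtain ⟨c0, hc0⟩ := hu
  have hεK : (ζ - 1 : K) ^ (p - 1) * algebraMap (𝓞 K) K ε = (p : K) := by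
    have := congrArg (algebraMap (𝓞 K) K) hε
    simpa [hlam] using this
  have hc0K : (u : K) - 1 = (ζ - 1) ^ p * algebraMap (𝓞 K) K c0 := by
    have := congrArg (algebraMap (𝓞 K) K) hc0
    simpa [hlam] using this
  have hdeg : ((X + C ((ζ - 1 : K)⁻¹)) ^ p).degree = (p : WithBot ℕ) := by
    rw [degree_pow, degree_X_add_C, nsmul_one]
  have hmonic : ((X + C ((ζ - 1 : K)⁻¹)) ^ p - C ((u : K) / (ζ - 1) ^ p)).Monic := by
    refine ((monic_X_add_C _).pow p).sub_of_left ?_
    rw [hdeg]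
    exact degree_C_le.trans_lt (by exact_mod_cast hp.pos)
  have hlift : ((X + C ((ζ - 1 : K)⁻¹)) ^ p - C ((u : K) / (ζ - 1) ^ p)) ∈
      lifts (algebraMap (𝓞 K) K) := by
    rw [lifts_iff_coeff_lifts]
    intro n
    rw [coeff_sub, coeff_X_add_C_pow, coeff_C]
    rcases Nat.eq_zero_or_pos n with rfl | hn
    · refine ⟨-c0, ?_⟩
      rw [map_neg, if_pos rfl, Nat.choose_zero_right, Nat.cast_one, mul_one, Nat.sub_zero,
        inv_pow]
      have h2 : algebraMap (𝓞 K) K c0 = ((u : K) - 1) / (ζ - 1) ^ p := by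
        rw [hc0K]
        field_simp
      rw [h2]
      field_simp
      ring
    · rw [if_neg hn.ne', sub_zero]
      rcases lt_trichotomy n p with hlt | rfl | hgt
      · obtain ⟨m, hm⟩ := hp.dvd_choose_self hn.ne' hlt
        refine ⟨(hζ.toInteger - 1) ^ (n - 1) * ε * m, ?_⟩
        rw [map_mul, map_mul, map_pow, hlam, map_natCast, hm, Nat.cast_mul, ← hεK, inv_pow]
        have e1 : (ζ - 1 : K) ^ (p - 1) = (ζ - 1) ^ (p - n) * (ζ - 1) ^ (n - 1) := by
          rw [← pow_add]
          congr 1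
          omega
        rw [e1]
        field_simp
      · exact ⟨1, by simp⟩
      · exact ⟨0, by simp [Nat.choose_eq_zero_of_lt hgt]⟩
  obtain ⟨G, hG, -, hGm⟩ := lifts_and_degree_eq_and_monic hlift hmonic
  exact ⟨G, hGm, hG⟩

end poly

section main

variable {p : ℕ} [Fact p.Prime] {K L : Type*} [Field K] [NumberField K]
  [IsCyclotomicExtension {p} ℚ K] [Field L] [NumberField L] [Algebra K L] {ζ : K}

set_option linter.unusedVariables false in
/-- **Kummer extensions by units `≡ 1 mod λ ^ p` are unramified.**  Let `K = ℚ(ζ_p)`,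
`λ = ζ - 1` and `u` a unit of `𝓞 K` with `λ ^ p ∣ u - 1`.  Then a splitting field `L` of
`X ^ p - u` over `K` is unramified at every finite prime of `L`. -/
theorem unramifiedEverywhere (hp2 : p ≠ 2) (hζ : IsPrimitiveRoot ζ p) (u : (𝓞 K)ˣ)
    (hu : (hζ.toInteger - 1) ^ p ∣ (u : 𝓞 K) - 1)
    [IsSplittingField K L (X ^ p - C ((u : 𝓞 K) : K))] :
    Fermat.Agent.S14.UnramifiedEverywhere K L := by
  have hp : p.Prime := Fact.out
  haveI : NeZero p := ⟨hp.ne_zero⟩
  have hl0 : (ζ - 1 : K) ≠ 0 := zeta_sub_one_ne_zero hζ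
  have hlam : algebraMap (𝓞 K) K (hζ.toInteger - 1) = ζ - 1 := by
    rw [map_sub, map_one]
    rfl
  obtain ⟨G, hGm, hG⟩ := exists_monic_lift hζ (u : 𝓞 K) hu
  obtain ⟨ε, hε⟩ := IsCyclotomicExtension.Rat.associated_zeta_sub_one_pow_prime p hζ
  have hεK : (ζ - 1 : K) ^ (p - 1) * algebraMap (𝓞 K) K ε = (p : K) := by
    have := congrArg (algebraMap (𝓞 K) K) hε
    simpa [hlam] using this
  -- the root `α` and the element `β = (α - 1) / λ`
  set α : L := rootOfSplitsXPowSubC hp.pos ((u : 𝓞 K) : K) L with hα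
  have hαp : α ^ p = algebraMap K L ((u : 𝓞 K) : K) := rootOfSplitsXPowSubC_pow _ L
  set l : L := algebraMap K L (ζ - 1) with hl
  have hlL : l ≠ 0 := by
    rw [hl, Ne, map_eq_zero]
    exact hl0
  have hu0 : ((u : 𝓞 K) : K) ≠ 0 := by
    have : (u : 𝓞 K) ≠ 0 := u.ne_zero
    exact_mod_cast this
  have hα0 : α ≠ 0 := by
    intro h0
    rw [h0, zero_pow hp.ne_zero] at hαp
    exact hu0 ((map_eq_zero _).mp hαp.symm)
  have hGL : G.map (algebraMap (𝓞 K) L) =
      (X + C l⁻¹) ^ p - C (algebraMap K L ((u : 𝓞 K) : K) / l ^ p) := by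
    rw [IsScalarTower.algebraMap_eq (𝓞 K) K L, ← Polynomial.map_map, hG]
    simp [hl]
  have hβl : (α - 1) / l + l⁻¹ = α / l := by
    field_simp
    ring
  have hβroot : aeval ((α - 1) / l) G = 0 := by
    rw [aeval_def, eval₂_eq_eval_map, hGL]
    simp only [eval_sub, eval_pow, eval_add, eval_X, eval_C]
    rw [hβl, div_pow, hαp, sub_self]
  have hβint : IsIntegral ℤ ((α - 1) / l) :=
    isIntegral_trans (R := ℤ) (A := 𝓞 K) _ ⟨G, hGm, hβroot⟩
  have hαint : IsIntegral ℤ α := by
    refine IsIntegral.of_pow hp.pos ?_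
    rw [hαp]
    exact ((u : 𝓞 K).isIntegral_coe).map (IsScalarTower.toAlgHom ℤ K L)
  set β : 𝓞 L := ⟨(α - 1) / l, hβint⟩ with hβ
  set a : 𝓞 L := ⟨α, hαint⟩ with ha
  have hβc : algebraMap (𝓞 L) L β = (α - 1) / l := rfl
  have hac : algebraMap (𝓞 L) L a = α := rfl
  have hinj : Function.Injective (algebraMap (𝓞 L) L) := RingOfIntegers.coe_injective
  -- `a` is a unit
  have hapow : a ^ p = algebraMap (𝓞 K) (𝓞 L) u := by
    apply hinj
    rw [map_pow, hac, hαp, ← IsScalarTower.algebraMap_apply, ← IsScalarTower.algebraMap_apply]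
  have haunit : IsUnit a := by
    rw [← isUnit_pow_iff hp.ne_zero, hapow]
    exact u.isUnit.map _
  -- `β` generates
  have hgen : Algebra.adjoin K {algebraMap (𝓞 L) L β} = ⊤ := by
    rw [eq_top_iff, ← IsSplittingField.adjoin_rootSet L (X ^ p - C ((u : 𝓞 K) : K))]
    refine Algebra.adjoin_le fun x hx ↦ ?_
    have hβmem : algebraMap (𝓞 L) L β ∈ Algebra.adjoin K {algebraMap (𝓞 L) L β} :=
      Algebra.subset_adjoin rfl
    have hαmem : α ∈ Algebra.adjoin K {algebraMap (𝓞 L) L β} := by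
      have : α = l * algebraMap (𝓞 L) L β + 1 := by
        rw [hβc]
        field_simp
        ring
      rw [this]
      exact Subalgebra.add_mem _ (Subalgebra.mul_mem _ (Subalgebra.algebraMap_mem _ _) hβmem)
        (Subalgebra.one_mem _)
    have hxp : x ^ p = algebraMap K L ((u : 𝓞 K) : K) := by
      have := (mem_rootSet.mp hx).2
      simpa [sub_eq_zero] using this
    have hxα : (x / α) ^ p = 1 := by
      rw [div_pow, hxp, hαp, div_self]
      rw [Ne, map_eq_zero]
      exact hu0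
    obtain ⟨i, -, hi⟩ :=
      (hζ.map_of_injective (algebraMap K L).injective).eq_pow_of_pow_eq_one hxα
    have hx' : x = algebraMap K L (ζ ^ i) * α := by
      rw [map_pow, hi]
      field_simp
    rw [hx']
    exact Subalgebra.mul_mem _ (Subalgebra.algebraMap_mem _ _) hαmem
  -- `β` is a root of `G`
  have hG0 : aeval β G = 0 := by
    apply hinj
    rw [← aeval_algebraMap_apply, hβc, hβroot, map_zero]
  -- the derivative is a unit
  have hGder : aeval β (derivative G) = algebraMap (𝓞 K) (𝓞 L) ε * a ^ (p - 1) := by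
    have hεL : algebraMap (𝓞 L) L (algebraMap (𝓞 K) (𝓞 L) ε) =
        algebraMap K L (algebraMap (𝓞 K) K ε) := by
      rw [← IsScalarTower.algebraMap_apply, ← IsScalarTower.algebraMap_apply]
    apply hinj
    rw [← aeval_algebraMap_apply, hβc, aeval_def, eval₂_eq_eval_map, ← derivative_map, hGL,
      map_mul, map_pow, hac, hεL]
    simp only [derivative_sub, derivative_C, sub_zero, derivative_pow, derivative_add,
      derivative_X, add_zero, mul_one, eval_mul, eval_pow, eval_add, eval_X, eval_C]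
    rw [hβl, div_pow]
    have h1 : (p : L) = l ^ (p - 1) * algebraMap K L (algebraMap (𝓞 K) K ε) := by
      rw [hl, ← map_pow, ← map_mul, hεK, map_natCast]
    rw [h1]
    field_simp
  have hunit : IsUnit (aeval β (derivative G)) := by
    rw [hGder]
    exact (ε.isUnit.map _).mul (haunit.pow _)
  exact unramifiedEverywhere_of_differentIdeal_eq_top
    (differentIdeal_eq_top_of_isUnit β hgen G hG0 hunit)

end main

end Fermat.Agent.S10.KummerUnram
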