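import Mathlib
import Fermat.Prelude.Def_FLTPrelim_FreyPackage
import Fermat.Agent.S10.CaseII
import Fermat.Agent.S10.KummerNorm
import Fermat.Agent.S10.KummerUnram

/-!
# S10 / S11 : Fermat's Last Theorem for a prime exponent `p` with `ℤ[ζ_p]` a PID

`flt_of_pid` : if `p` is an odd prime, the ring of integers of `ℚ(ζ_p)` is a principal ideal
domain and the first case of Fermat's Last Theorem holds for `p`, then `a ^ p + b ^ p = c ^ p` has
no solution in nonzero coprime integers.  (Kummer: the second case by descent in `ℤ[ζ_p]`,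
`CaseII`, with Kummer's lemma `KummerNorm` + `KummerUnram`.)

`no_frey_of_pid` : hence there is no Frey package with such a `p`.
-/

set_option autoImplicit false

namespace Fermat.Agent.S10.Regular

open NumberField

/-- **Kummer's lemma** for `ℚ(ζ_p)` of class number one. -/
theorem kummer {p : ℕ} [Fact p.Prime] (hp2 : p ≠ 2) {K : Type} [Field K] [NumberField K]
    [IsCyclotomicExtension {p} ℚ K] [IsPrincipalIdealRing (𝓞 K)] {ζ : K}
    (hζ : IsPrimitiveRoot ζ p) (u : (𝓞 K)ˣ) (n : ℤ) (h : (p : 𝓞 K) ∣ (u : 𝓞 K) - n) :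
    ∃ v : (𝓞 K)ˣ, u = v ^ p :=
  KummerNorm.kummer_of_unramified hp2 hζ
    (fun a ha L _ _ _ _ => KummerUnram.unramifiedEverywhere hp2 hζ a ha) u n h

/-- The second case, over `ℤ`, with `p ∣ z`. -/
theorem caseII_int {p : ℕ} (hp : p.Prime) (hp2 : p ≠ 2)
    (hpid : ∀ (K : Type) [Field K] [NumberField K] [IsCyclotomicExtension {p} ℚ K],
      IsPrincipalIdealRing (𝓞 K))
    {x y z : ℤ} (hxy : IsCoprime x y) (hz : z ≠ 0) (hpz : (p : ℤ) ∣ z)
    (h : x ^ p + y ^ p = z ^ p) : False := by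
  have : Fact p.Prime := ⟨hp⟩
  have : NeZero p := ⟨hp.ne_zero⟩
  have : NeZero (p : ℚ) := ⟨Nat.cast_ne_zero.mpr hp.ne_zero⟩
  have : IsCyclotomicExtension {p} ℚ (CyclotomicField p ℚ) :=
    CyclotomicField.isCyclotomicExtension p ℚ
  have : NumberField (CyclotomicField p ℚ) :=
    IsCyclotomicExtension.numberField {p} ℚ (CyclotomicField p ℚ)
  have hζ : IsPrimitiveRoot (IsCyclotomicExtension.zeta p ℚ (CyclotomicField p ℚ)) p :=
    IsCyclotomicExtension.zeta_spec p ℚ (CyclotomicField p ℚ)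
  have hpid' : IsPrincipalIdealRing (𝓞 (CyclotomicField p ℚ)) := hpid (CyclotomicField p ℚ)
  exact CaseII.caseII hζ hp2 hpid' (fun u a hu => kummer hp2 hζ u a hu) hxy hz hpz h

/-- **Fermat's Last Theorem** for an odd prime `p` such that `ℤ[ζ_p]` is a principal ideal
domain and the first case holds. -/
theorem flt_of_pid {p : ℕ} (hp : p.Prime) (hp2 : p ≠ 2)
    (hpid : ∀ (K : Type) [Field K] [NumberField K] [IsCyclotomicExtension {p} ℚ K],
      IsPrincipalIdealRing (𝓞 K))
    (hI : ∀ {a b c : ℤ}, IsCoprime a b → a ^ p + b ^ p = c ^ p → (p : ℤ) ∣ a * b * c)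
    {a b c : ℤ} (ha : a ≠ 0) (hb : b ≠ 0) (hc : c ≠ 0) (hab : IsCoprime a b)
    (h : a ^ p + b ^ p = c ^ p) : False := by
  have hodd : Odd p := hp.odd_of_ne_two hp2
  have hdvd := hI hab h
  have hpZ : Prime (p : ℤ) := Nat.prime_iff_prime_int.mp hp
  have hp0 : 0 < p := hp.pos
  obtain ⟨k, hk⟩ : ∃ k, p = k + 1 := ⟨p - 1, (Nat.sub_add_cancel hp.one_le).symm⟩
  have hcb : IsCoprime c b := by
    have h1 : IsCoprime (a ^ p + b * b ^ k) b := (hab.pow_left).add_mul_left_left _
    rw [show a ^ p + b * b ^ k = c ^ p by rw [← h, hk, pow_succ' b k]] at h1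
    exact (IsCoprime.pow_left_iff hp0).mp h1
  have hca : IsCoprime c a := by
    have h1 : IsCoprime (b ^ p + a * a ^ k) a := (hab.symm.pow_left).add_mul_left_left _
    rw [show b ^ p + a * a ^ k = c ^ p by rw [← h, hk, pow_succ' a k]; ring] at h1
    exact (IsCoprime.pow_left_iff hp0).mp h1
  rcases hpZ.dvd_mul.mp hdvd with hab' | hc'
  · rcases hpZ.dvd_mul.mp hab' with ha' | hb'
    · refine caseII_int hp hp2 hpid (x := c) (y := -b) hcb.neg_right ha ha' ?_
      rw [hodd.neg_pow, ← h]; ring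
    · refine caseII_int hp hp2 hpid (x := c) (y := -a) hca.neg_right hb hb' ?_
      rw [hodd.neg_pow, ← h]; ring
  · exact caseII_int hp hp2 hpid hab hc hc' h

/-- There is no Frey package whose prime `p` has `ℤ[ζ_p]` a principal ideal domain and
satisfies the first case of Fermat's Last Theorem. -/
theorem no_frey_of_pid (P : FreyPackage)
    (hpid : ∀ (K : Type) [Field K] [NumberField K] [IsCyclotomicExtension {P.p} ℚ K],
      IsPrincipalIdealRing (𝓞 K))
    (hI : ∀ {a b c : ℤ}, IsCoprime a b → a ^ P.p + b ^ P.p = c ^ P.p → (P.p : ℤ) ∣ a * b * c) :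
    False := by
  have hcop : IsCoprime P.a P.b := by
    rw [← gcd_isUnit_iff, P.hgcdab]
    exact isUnit_one
  have hp2 : P.p ≠ 2 := by have := P.hp5; omega
  exact flt_of_pid P.pp hp2 hpid hI P.ha0 P.hb0 P.hc0 hcop P.hFLT

end Fermat.Agent.S10.Regular
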