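import Mathlib

/-!
# S10 / S11 : the first case of Fermat's Last Theorem for `p = 5, 7, 11, 13` (Sophie Germain)

**Sophie Germain's theorem.** Let `p` be an odd prime and `q` an auxiliary prime such that

* `x ^ p + y ^ p + z ^ p = 0` in `ZMod q` forces `x = 0 ∨ y = 0 ∨ z = 0`, and
* `p` is not a `p`-th power in `ZMod q`.

Then every solution of `a ^ p + b ^ p = c ^ p` in coprime integers has `p ∣ a * b * c`.

For `p = 5, 11` we use `q = 2 p + 1`, for `p = 7, 13` we use `q = 4 p + 1`.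
-/

set_option autoImplicit false

namespace Fermat.Agent.S10.SophieGermain

open Finset

/-! ### The cofactor of `y + z` in `y ^ p + z ^ p` -/

/-- `phi p y z = (y ^ p + z ^ p) / (y + z)` for odd `p`. -/
def phi {R : Type*} [CommRing R] (p : ℕ) (y z : R) : R :=
  ∑ i ∈ range p, y ^ i * (-z) ^ (p - 1 - i)

theorem phi_mul {R : Type*} [CommRing R] {p : ℕ} (hp : Odd p) (y z : R) :
    phi p y z * (y + z) = y ^ p + z ^ p := by
  have h := (Commute.all y (-z)).geom_sum₂_mul p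
  rw [sub_neg_eq_add, hp.neg_pow, sub_neg_eq_add] at h
  exact h

theorem map_phi {R S : Type*} [CommRing R] [CommRing S] (f : R →+* S) (p : ℕ) (y z : R) :
    f (phi p y z) = phi p (f y) (f z) := by
  simp [phi, map_sum, map_mul, map_pow, map_neg]

theorem cast_phi {R : Type*} [CommRing R] (p : ℕ) (y z : ℤ) :
    ((phi p y z : ℤ) : R) = phi p (y : R) (z : R) := by
  simpa using map_phi (Int.castRingHom R) p y z

/-- If `y + z = 0` then `phi p y z = p * y ^ (p - 1)`. -/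
theorem phi_of_add_eq_zero {R : Type*} [CommRing R] (p : ℕ) {y z : R} (h : y + z = 0) :
    phi p y z = p * y ^ (p - 1) := by
  have hz : -z = y := by rw [neg_eq_iff_add_eq_zero, add_comm]; exact h
  rw [phi, hz, geom_sum₂_self]

/-- If `x = 0` then `phi p x y = y ^ (p - 1)` (`p` odd). -/
theorem phi_zero_left {R : Type*} [CommRing R] {p : ℕ} (hp : Odd p) (y : R) :
    phi p 0 y = y ^ (p - 1) := by
  obtain ⟨k, hk⟩ := hp
  have hp0 : 0 < p := by omega
  rw [phi, Finset.sum_eq_single_of_mem 0 (Finset.mem_range.mpr hp0)]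
  · have hev : Even (p - 1) := ⟨k, by omega⟩
    rw [pow_zero, one_mul, Nat.sub_zero, hev.neg_pow]
  · intro i _ hi
    rw [zero_pow hi, zero_mul]

theorem isCoprime_add_phi {p : ℕ} (hp : p.Prime) {y z : ℤ} (hyz : IsCoprime y z)
    (hodd : Odd p) (hpx : ¬ (p : ℤ) ∣ y ^ p + z ^ p) : IsCoprime (y + z) (phi p y z) := by
  have hmul := phi_mul hodd y z
  apply isCoprime_of_prime_dvd
  · rintro ⟨h0, -⟩
    apply hpx
    rw [← hmul, h0, mul_zero]
    exact dvd_zero _
  · intro l hl h1 h2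
    have h3 : l ∣ y - -z := by rwa [sub_neg_eq_add]
    have h4 : l ∣ (p : ℤ) * (-z) ^ (p - 1) := by
      have := (dvd_geom_sum₂_iff_of_dvd_sub (n := p) h3).mp h2
      exact_mod_cast this
    rcases hl.dvd_or_dvd h4 with h5 | h5
    · -- `l ∣ p`, so `p ∣ y + z`
      have hpZ : Prime (p : ℤ) := Nat.prime_iff_prime_int.mp hp
      have hassoc : Associated l (p : ℤ) := hl.associated_of_dvd hpZ h5
      apply hpx
      rw [← hmul]
      exact Dvd.dvd.mul_left (hassoc.symm.dvd.trans h1) _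
    · -- `l ∣ z`, so `l ∣ y`
      have h6 : l ∣ z := by
        have := hl.dvd_of_dvd_pow h5
        exact (dvd_neg.mp this)
      have h7 : l ∣ y := by
        have := dvd_sub h1 h6
        rwa [add_sub_cancel_right] at this
      exact hl.not_isUnit (hyz.isUnit_of_dvd' h7 h6)

/-- The two factors of `y ^ p + z ^ p = (-x) ^ p` are `p`-th powers. -/
theorem exists_pow_eq {p : ℕ} (hp : p.Prime) (hodd : Odd p) {x y z : ℤ}
    (hyz : IsCoprime y z) (h : x ^ p + y ^ p + z ^ p = 0) (hpx : ¬ (p : ℤ) ∣ x) :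
    (∃ A : ℤ, y + z = A ^ p) ∧ ∃ T : ℤ, phi p y z = T ^ p := by
  have hsum : y ^ p + z ^ p = (-x) ^ p := by
    rw [hodd.neg_pow]
    linarith
  have hpx' : ¬ (p : ℤ) ∣ y ^ p + z ^ p := by
    rw [hsum]
    intro hd
    exact hpx (dvd_neg.mp (Int.Prime.dvd_pow' hp hd))
  have hcop := isCoprime_add_phi hp hyz hodd hpx'
  have hmul : (y + z) * phi p y z = (-x) ^ p := by
    rw [mul_comm, phi_mul hodd, hsum]
  exact Int.eq_pow_of_mul_eq_pow_odd hcop hodd hmul

/-! ### The key step -/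

theorem key {p q : ℕ} (hp : p.Prime) (hp2 : p ≠ 2) (hq : q.Prime)
    (h1 : ∀ x y z : ZMod q, x ^ p + y ^ p + z ^ p = 0 → x = 0 ∨ y = 0 ∨ z = 0)
    (h2 : ∀ x : ZMod q, x ^ p ≠ (p : ZMod q))
    {x y z : ℤ} (hxy : IsCoprime x y) (hyz : IsCoprime y z) (hzx : IsCoprime z x)
    (h : x ^ p + y ^ p + z ^ p = 0)
    (hpx : ¬ (p : ℤ) ∣ x) (hpy : ¬ (p : ℤ) ∣ y) (hpz : ¬ (p : ℤ) ∣ z)
    (hqx : (q : ℤ) ∣ x) : False := by
  have : Fact q.Prime := ⟨hq⟩
  have hodd : Odd p := hp.odd_of_ne_two hp2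
  have hqZ : Prime (q : ℤ) := Nat.prime_iff_prime_int.mp hq
  obtain ⟨⟨A, hA⟩, ⟨T, hT⟩⟩ := exists_pow_eq hp hodd hyz h hpx
  obtain ⟨⟨B, hB⟩, -⟩ := exists_pow_eq hp hodd hzx (x := y) (by linarith) hpy
  obtain ⟨⟨C, hC⟩, ⟨S, hS⟩⟩ := exists_pow_eq hp hodd hxy (x := z) (by linarith) hpz
  -- reduction modulo `q`
  have hx0 : ((x : ℤ) : ZMod q) = 0 := (ZMod.intCast_zmod_eq_zero_iff_dvd x q).mpr hqx
  have hy0 : ((y : ℤ) : ZMod q) ≠ 0 := by
    intro hy
    have hqy : (q : ℤ) ∣ y := (ZMod.intCast_zmod_eq_zero_iff_dvd y q).mp hy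
    exact hqZ.not_isUnit (hxy.isUnit_of_dvd' hqx hqy)
  have hz0 : ((z : ℤ) : ZMod q) ≠ 0 := by
    intro hz
    have hqz : (q : ℤ) ∣ z := (ZMod.intCast_zmod_eq_zero_iff_dvd z q).mp hz
    exact hqZ.not_isUnit (hzx.isUnit_of_dvd' hqz hqx)
  have hA' : (y : ZMod q) + (z : ZMod q) = (A : ZMod q) ^ p := by
    have := congrArg (Int.cast : ℤ → ZMod q) hA
    push_cast at this
    exact this
  have hB' : (z : ZMod q) + (x : ZMod q) = (B : ZMod q) ^ p := by
    have := congrArg (Int.cast : ℤ → ZMod q) hB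
    push_cast at this
    exact this
  have hC' : (x : ZMod q) + (y : ZMod q) = (C : ZMod q) ^ p := by
    have := congrArg (Int.cast : ℤ → ZMod q) hC
    push_cast at this
    exact this
  have hsum : (B : ZMod q) ^ p + (C : ZMod q) ^ p + (-(A : ZMod q)) ^ p = 0 := by
    rw [hodd.neg_pow, ← hA', ← hB', ← hC', hx0]
    ring
  rcases h1 _ _ _ hsum with hB0 | hC0 | hA0
  · -- `B = 0`
    rw [hB0, zero_pow hp.ne_zero, hx0, add_zero] at hB'
    exact hz0 hB'
  · -- `C = 0`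
    rw [hC0, zero_pow hp.ne_zero, hx0, zero_add] at hC'
    exact hy0 hC'
  · -- `A = 0`
    have hA0' : (A : ZMod q) = 0 := neg_eq_zero.mp hA0
    rw [hA0', zero_pow hp.ne_zero] at hA'
    have hT' : (T : ZMod q) ^ p = (p : ZMod q) * (y : ZMod q) ^ (p - 1) := by
      have := congrArg (Int.cast : ℤ → ZMod q) hT
      rw [cast_phi, Int.cast_pow] at this
      rw [← this]
      exact phi_of_add_eq_zero p hA'
    have hS' : (S : ZMod q) ^ p = (y : ZMod q) ^ (p - 1) := by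
      have := congrArg (Int.cast : ℤ → ZMod q) hS
      rw [cast_phi, Int.cast_pow] at this
      rw [← this, hx0]
      exact phi_zero_left hodd _
    have hS0 : (S : ZMod q) ^ p ≠ 0 := by
      rw [hS']
      exact pow_ne_zero _ hy0
    apply h2 ((T : ZMod q) / (S : ZMod q))
    rw [div_pow, hT', hS', mul_div_assoc, div_self (hS' ▸ hS0), mul_one]

/-- **Sophie Germain's theorem** with an auxiliary prime `q`. -/
theorem caseI_of_aux {p q : ℕ} (hp : p.Prime) (hp2 : p ≠ 2) (hq : q.Prime)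
    (h1 : ∀ x y z : ZMod q, x ^ p + y ^ p + z ^ p = 0 → x = 0 ∨ y = 0 ∨ z = 0)
    (h2 : ∀ x : ZMod q, x ^ p ≠ (p : ZMod q))
    {a b c : ℤ} (hab : IsCoprime a b) (h : a ^ p + b ^ p = c ^ p) : (p : ℤ) ∣ a * b * c := by
  by_contra hndvd
  have hodd : Odd p := hp.odd_of_ne_two hp2
  have hpa : ¬ (p : ℤ) ∣ a := fun hd => hndvd ((hd.mul_right b).mul_right c)
  have hpb : ¬ (p : ℤ) ∣ b := fun hd => hndvd ((hd.mul_left a).mul_right c)
  have hpc : ¬ (p : ℤ) ∣ c := fun hd => hndvd (hd.mul_left (a * b))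
  have hpc' : ¬ (p : ℤ) ∣ -c := fun hd => hpc (dvd_neg.mp hd)
  obtain ⟨k, hk⟩ : ∃ k, p = k + 1 := ⟨p - 1, (Nat.sub_add_cancel hp.one_le).symm⟩
  have hcb : IsCoprime c b := by
    have : IsCoprime (a ^ p + b * b ^ k) b := (hab.pow_left).add_mul_left_left _
    rw [show a ^ p + b * b ^ k = c ^ p by rw [← h, hk, pow_succ' b k]] at this
    exact (IsCoprime.pow_left_iff hp.pos).mp this
  have hca : IsCoprime c a := by
    have : IsCoprime (b ^ p + a * a ^ k) a := (hab.symm.pow_left).add_mul_left_left _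
    rw [show b ^ p + a * a ^ k = c ^ p by rw [← h, hk, pow_succ' a k]; ring] at this
    exact (IsCoprime.pow_left_iff hp.pos).mp this
  have hsum : a ^ p + b ^ p + (-c) ^ p = 0 := by
    rw [hodd.neg_pow, h]
    ring
  have hsumq : (a : ZMod q) ^ p + (b : ZMod q) ^ p + ((-c : ℤ) : ZMod q) ^ p = 0 := by
    have := congrArg (Int.cast : ℤ → ZMod q) hsum
    push_cast at this
    push_cast
    exact this
  rcases h1 _ _ _ hsumq with ha0 | hb0 | hc0
  · have hqa : (q : ℤ) ∣ a := (ZMod.intCast_zmod_eq_zero_iff_dvd a q).mp ha0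
    exact key hp hp2 hq h1 h2 hab hcb.symm.neg_right hca.neg_left hsum hpa hpb hpc' hqa
  · have hqb : (q : ℤ) ∣ b := (ZMod.intCast_zmod_eq_zero_iff_dvd b q).mp hb0
    refine key hp hp2 hq h1 h2 (x := b) (y := -c) (z := a) hcb.symm.neg_right hca.neg_left hab
      ?_ hpb hpc' hpa hqb
    linarith
  · have hqc : (q : ℤ) ∣ -c := (ZMod.intCast_zmod_eq_zero_iff_dvd (-c) q).mp hc0
    refine key hp hp2 hq h1 h2 (x := -c) (y := a) (z := b) hca.neg_left hab hcb.symm.neg_right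
      ?_ hpc' hpa hpb hqc
    linarith

/-! ### `p`-th powers modulo `q = 2 p + 1` and `q = 4 p + 1` -/

theorem pow_eq_of_two_mul {p q : ℕ} [Fact q.Prime] (hq : q = 2 * p + 1) {x : ZMod q}
    (hx : x ≠ 0) : x ^ p = 1 ∨ x ^ p = -1 := by
  have h := ZMod.pow_card_sub_one_eq_one hx
  have h' : (x ^ p) ^ 2 = 1 := by
    rw [← pow_mul, mul_comm]
    have : q - 1 = 2 * p := by omega
    rw [← this]
    exact h
  exact sq_eq_one_iff.mp h'

theorem pow_eq_of_four_mul {p q : ℕ} [Fact q.Prime] (hq : q = 4 * p + 1) {i : ZMod q}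
    (hi : i ^ 2 = -1) {x : ZMod q} (hx : x ≠ 0) :
    x ^ p = 1 ∨ x ^ p = -1 ∨ x ^ p = i ∨ x ^ p = -i := by
  have h := ZMod.pow_card_sub_one_eq_one hx
  have h' : (x ^ p) ^ 4 = 1 := by
    rw [← pow_mul, mul_comm]
    have : q - 1 = 4 * p := by omega
    rw [← this]
    exact h
  set u := x ^ p with hu
  have h2 : (u ^ 2 - 1) * (u ^ 2 - i ^ 2) = 0 := by
    rw [hi]
    linear_combination h'
  rcases mul_eq_zero.mp h2 with h3 | h3
  · have : (u - 1) * (u + 1) = 0 := by linear_combination h3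
    rcases mul_eq_zero.mp this with h4 | h4
    · exact Or.inl (sub_eq_zero.mp h4)
    · exact Or.inr (Or.inl (eq_neg_of_add_eq_zero_left h4))
  · have : (u - i) * (u + i) = 0 := by linear_combination h3
    rcases mul_eq_zero.mp this with h4 | h4
    · exact Or.inr (Or.inr (Or.inl (sub_eq_zero.mp h4)))
    · exact Or.inr (Or.inr (Or.inr (eq_neg_of_add_eq_zero_left h4)))

/-! ### The four exponents -/

instance fact_prime_eleven : Fact (Nat.Prime 11) := ⟨by norm_num⟩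
instance fact_prime_twentythree : Fact (Nat.Prime 23) := ⟨by norm_num⟩
instance fact_prime_twentynine : Fact (Nat.Prime 29) := ⟨by norm_num⟩
instance fact_prime_fiftythree : Fact (Nat.Prime 53) := ⟨by norm_num⟩

theorem mem_five {x : ZMod 11} (hx : x ≠ 0) : x ^ 5 ∈ ({1, -1} : Finset (ZMod 11)) := by
  rcases pow_eq_of_two_mul (p := 5) (q := 11) rfl hx with h | h <;> rw [h] <;> decide

theorem mem_eleven {x : ZMod 23} (hx : x ≠ 0) : x ^ 11 ∈ ({1, -1} : Finset (ZMod 23)) := by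
  rcases pow_eq_of_two_mul (p := 11) (q := 23) rfl hx with h | h <;> rw [h] <;> decide

theorem mem_seven {x : ZMod 29} (hx : x ≠ 0) :
    x ^ 7 ∈ ({1, -1, 12, -12} : Finset (ZMod 29)) := by
  rcases pow_eq_of_four_mul (p := 7) (q := 29) rfl (i := 12) (by decide) hx
    with h | h | h | h <;> rw [h] <;> decide

theorem mem_thirteen {x : ZMod 53} (hx : x ≠ 0) :
    x ^ 13 ∈ ({1, -1, 23, -23} : Finset (ZMod 53)) := by
  rcases pow_eq_of_four_mul (p := 13) (q := 53) rfl (i := 23) (by decide) hx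
    with h | h | h | h <;> rw [h] <;> decide

theorem sum_five : ∀ u ∈ ({1, -1} : Finset (ZMod 11)), ∀ v ∈ ({1, -1} : Finset (ZMod 11)),
    ∀ w ∈ ({1, -1} : Finset (ZMod 11)), u + v + w ≠ 0 := by decide

theorem sum_eleven : ∀ u ∈ ({1, -1} : Finset (ZMod 23)), ∀ v ∈ ({1, -1} : Finset (ZMod 23)),
    ∀ w ∈ ({1, -1} : Finset (ZMod 23)), u + v + w ≠ 0 := by decide

set_option maxRecDepth 100000 in
theorem sum_seven : ∀ u ∈ ({1, -1, 12, -12} : Finset (ZMod 29)),
    ∀ v ∈ ({1, -1, 12, -12} : Finset (ZMod 29)),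
    ∀ w ∈ ({1, -1, 12, -12} : Finset (ZMod 29)), u + v + w ≠ 0 := by decide

set_option maxRecDepth 100000 in
theorem sum_thirteen : ∀ u ∈ ({1, -1, 23, -23} : Finset (ZMod 53)),
    ∀ v ∈ ({1, -1, 23, -23} : Finset (ZMod 53)),
    ∀ w ∈ ({1, -1, 23, -23} : Finset (ZMod 53)), u + v + w ≠ 0 := by decide

/-- The two hypotheses of Sophie Germain's theorem from the set of nonzero `p`-th powers. -/
theorem aux_of_finset {p q : ℕ} (hp : p ≠ 0) (P : Finset (ZMod q))
    (hmem : ∀ x : ZMod q, x ≠ 0 → x ^ p ∈ P)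
    (hsum : ∀ u ∈ P, ∀ v ∈ P, ∀ w ∈ P, u + v + w ≠ 0)
    (hp0 : (p : ZMod q) ≠ 0) (hpP : (p : ZMod q) ∉ P) :
    (∀ x y z : ZMod q, x ^ p + y ^ p + z ^ p = 0 → x = 0 ∨ y = 0 ∨ z = 0) ∧
      ∀ x : ZMod q, x ^ p ≠ (p : ZMod q) := by
  constructor
  · intro x y z h
    by_contra hne
    push Not at hne
    exact hsum _ (hmem x hne.1) _ (hmem y hne.2.1) _ (hmem z hne.2.2) h
  · intro x hx
    by_cases hx0 : x = 0
    · rw [hx0, zero_pow hp] at hx
      exact hp0 hx.symm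
    · exact hpP (hx ▸ hmem x hx0)

theorem caseI_five {a b c : ℤ} (hab : IsCoprime a b) (h : a ^ 5 + b ^ 5 = c ^ 5) :
    ((5 : ℕ) : ℤ) ∣ a * b * c := by
  obtain ⟨h1, h2⟩ := aux_of_finset (p := 5) (q := 11) (by norm_num) _ (fun x hx => mem_five hx)
    sum_five (by decide) (by decide)
  exact caseI_of_aux (by norm_num) (by norm_num) (by norm_num) h1 h2 hab h

theorem caseI_seven {a b c : ℤ} (hab : IsCoprime a b) (h : a ^ 7 + b ^ 7 = c ^ 7) :
    ((7 : ℕ) : ℤ) ∣ a * b * c := by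
  obtain ⟨h1, h2⟩ := aux_of_finset (p := 7) (q := 29) (by norm_num) _ (fun x hx => mem_seven hx)
    sum_seven (by decide) (by decide)
  exact caseI_of_aux (by norm_num) (by norm_num) (by norm_num) h1 h2 hab h

theorem caseI_eleven {a b c : ℤ} (hab : IsCoprime a b) (h : a ^ 11 + b ^ 11 = c ^ 11) :
    ((11 : ℕ) : ℤ) ∣ a * b * c := by
  obtain ⟨h1, h2⟩ := aux_of_finset (p := 11) (q := 23) (by norm_num) _
    (fun x hx => mem_eleven hx) sum_eleven (by decide) (by decide)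
  exact caseI_of_aux (by norm_num) (by norm_num) (by norm_num) h1 h2 hab h

theorem caseI_thirteen {a b c : ℤ} (hab : IsCoprime a b) (h : a ^ 13 + b ^ 13 = c ^ 13) :
    ((13 : ℕ) : ℤ) ∣ a * b * c := by
  obtain ⟨h1, h2⟩ := aux_of_finset (p := 13) (q := 53) (by norm_num) _
    (fun x hx => mem_thirteen hx) sum_thirteen (by decide) (by decide)
  exact caseI_of_aux (by norm_num) (by norm_num) (by norm_num) h1 h2 hab h

/-- The first case of Fermat's Last Theorem for the exponents `5, 7, 11, 13`. -/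
theorem caseI {p : ℕ} (hp : p = 5 ∨ p = 7 ∨ p = 11 ∨ p = 13) {a b c : ℤ} (hab : IsCoprime a b)
    (h : a ^ p + b ^ p = c ^ p) : (p : ℤ) ∣ a * b * c := by
  rcases hp with rfl | rfl | rfl | rfl
  · exact caseI_five hab h
  · exact caseI_seven hab h
  · exact caseI_eleven hab h
  · exact caseI_thirteen hab h

end Fermat.Agent.S10.SophieGermain
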