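import Mathlib

/-!
# S10 / S11 (Kummer): reduction of the second case over `ℤ` to the descent statement in `𝓞 K`

`K = ℚ(ζ_p)`, `λ = ζ - 1`.  The descent statement `CaseIIRing p K` says that
`x ^ p + y ^ p = ε (λ ^ m z) ^ p` has no solution in `𝓞 K` with `m ≥ 1`, `x, y` coprime,
`λ ∤ z`, `ε` a unit.  From it we deduce the second case of Fermat's equation over `ℤ`:
`a ^ p + b ^ p ≠ c ^ p` for coprime `a, b` with `p ∣ a b c` and `a b c ≠ 0`.
-/

set_option autoImplicit false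

open NumberField

namespace Fermat.Agent.S10.CaseIIInt

variable (p : ℕ) [hp : Fact p.Prime] (K : Type*) [Field K] [NumberField K]
  [IsCyclotomicExtension {p} ℚ K]

/-- The descent statement of the second case, in the ring of integers of `ℚ(ζ_p)`. -/
def CaseIIRing : Prop :=
  ∀ (ζ : K) (hζ : IsPrimitiveRoot ζ p) (m : ℕ) (x y z : 𝓞 K) (ε : (𝓞 K)ˣ), 1 ≤ m →
    IsCoprime x y → ¬ (hζ.toInteger - 1) ∣ z →
    x ^ p + y ^ p ≠ ε * ((hζ.toInteger - 1) ^ m * z) ^ p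

variable {p K}

/-- The case `p ∣ c`. -/
theorem caseII_int_aux (h : CaseIIRing p K) {a b c : ℤ} (hab : IsCoprime a b) (hc0 : c ≠ 0)
    (hc : (p : ℤ) ∣ c) : a ^ p + b ^ p ≠ c ^ p := by
  intro heq
  have hpp : Prime (p : ℤ) := Nat.prime_iff_prime_int.mp hp.out
  -- write `c = p ^ k * c₀`
  obtain ⟨k, c₀, hc₀, hcc⟩ : ∃ (k : ℕ) (c₀ : ℤ), ¬ (p : ℤ) ∣ c₀ ∧ c = (p : ℤ) ^ k * c₀ :=
    (WfDvdMonoid.max_power_factor hc0 hpp.irreducible).imp fun k ⟨c₀, h1, h2⟩ => ⟨c₀, h1, h2⟩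
  have hk : 1 ≤ k := by
    rcases Nat.eq_zero_or_pos k with h0 | h0
    · exfalso
      rw [h0, pow_zero, one_mul] at hcc
      exact hc₀ (hcc ▸ hc)
    · exact h0
  have hζ := IsCyclotomicExtension.zeta_spec p ℚ K
  obtain ⟨u, hu⟩ := IsCyclotomicExtension.Rat.associated_zeta_sub_one_pow_prime p hζ
  have hm : 1 ≤ (p - 1) * k := by
    have := hp.out.two_le
    exact Nat.one_le_iff_ne_zero.mpr (Nat.mul_ne_zero (by omega) (by omega))
  refine h _ hζ ((p - 1) * k) (a : 𝓞 K) (b : 𝓞 K) (c₀ : 𝓞 K) (u ^ (k * p)) hm ?_ ?_ ?_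
  · exact hab.intCast
  · rwa [IsCyclotomicExtension.Rat.zeta_sub_one_dvd_intCast_iff' p hζ]
  · have h1 : ((a : 𝓞 K)) ^ p + (b : 𝓞 K) ^ p = (c : 𝓞 K) ^ p := by
      exact_mod_cast congrArg (Int.cast : ℤ → 𝓞 K) heq
    rw [h1, hcc]
    push_cast
    rw [← hu]
    ring
  
/-- `IsCoprime c b` from `IsCoprime a b` and `a ^ p + b ^ p = c ^ p`. -/
theorem isCoprime_of_eq {n : ℕ} (hn : 0 < n) {a b c : ℤ} (hab : IsCoprime a b)
    (heq : a ^ n + b ^ n = c ^ n) : IsCoprime c b := by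
  have h1 : IsCoprime (a ^ n) (b ^ n) := hab.pow
  have h2 : IsCoprime (a ^ n + b ^ n) (b ^ n) := by
    simpa using h1.add_mul_right_left 1
  rw [heq] at h2
  exact (IsCoprime.pow_iff hn hn).mp h2

/-- The second case over `ℤ`: `p ∣ a b c`. -/
theorem caseII_int (h : CaseIIRing p K) (hp2 : p ≠ 2) {a b c : ℤ} (hab : IsCoprime a b)
    (habc : (p : ℤ) ∣ a * b * c) (h0 : a * b * c ≠ 0) : a ^ p + b ^ p ≠ c ^ p := by
  intro heq
  have hpp : Prime (p : ℤ) := Nat.prime_iff_prime_int.mp hp.out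
  have hodd : Odd p := hp.out.odd_of_ne_two hp2
  have ha0 : a ≠ 0 := fun h => h0 (by simp [h])
  have hb0 : b ≠ 0 := fun h => h0 (by simp [h])
  have hc0 : c ≠ 0 := fun h => h0 (by simp [h])
  have hpos : 0 < p := hp.out.pos
  rcases hpp.dvd_or_dvd habc with hab' | hc
  · rcases hpp.dvd_or_dvd hab' with ha | hb
    · -- `c ^ p + (-b) ^ p = a ^ p`
      have hcb : IsCoprime c (-b) := (isCoprime_of_eq hpos hab heq).neg_right
      refine caseII_int_aux h hcb ha0 ha ?_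
      rw [hodd.neg_pow, ← heq]
      ring
    · -- `c ^ p + (-a) ^ p = b ^ p`
      have heq' : b ^ p + a ^ p = c ^ p := by rw [add_comm]; exact heq
      have hca : IsCoprime c (-a) := (isCoprime_of_eq hpos hab.symm heq').neg_right
      refine caseII_int_aux h hca hb0 hb ?_
      rw [hodd.neg_pow, ← heq]
      ring
  · exact caseII_int_aux h hab hc0 hc heq

end Fermat.Agent.S10.CaseIIInt
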