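/-
S10 / S11 (FLT for the exponents 5, 7, 11, 13 via Kummer): Kummer's lemma for `ℚ(ζ_p)` of class
number one: a unit of `𝓞 K` which is congruent to a rational integer modulo `p` is a `p`-th power
(`KummerLemma.kummer`). Assembly of `KummerNorm` (norm argument and the non-existence of unramified
extensions of degree `p`, via `NormIndex`) and `KummerUnram` (the Kummer extension of a unit
congruent to `1` modulo `(ζ - 1) ^ p` is unramified everywhere).
-/
import Mathlib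
import Fermat.Agent.S10.KummerNorm
import Fermat.Agent.S10.KummerUnram

namespace Fermat.Agent.S10.KummerLemma

open NumberField Polynomial Fermat.Agent.S14

variable {p : ℕ} [hp : Fact p.Prime] {K : Type*} [Field K] [NumberField K]
  [IsCyclotomicExtension {p} ℚ K] {ζ : K} (hζ : IsPrimitiveRoot ζ p)

/-- L3a : the norm argument. -/
theorem pow_sub_one_dvd (hp2 : p ≠ 2) (u : (𝓞 K)ˣ) (a : ℤ)
    (hu : (p : 𝓞 K) ∣ (u : 𝓞 K) - (a : 𝓞 K)) :
    (hζ.toInteger - 1) ^ p ∣ (u : 𝓞 K) ^ (p - 1) - 1 := by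
  simpa using KummerNorm.zeta_sub_one_pow_dvd hp2 hζ u a hu

/-- L3c : a unit `≡ 1 mod λ^p` is a `p`-th power (if `𝓞 K` is a PID). -/
theorem exists_pow_eq_of_dvd_sub_one (hp2 : p ≠ 2) (hpid : IsPrincipalIdealRing (𝓞 K))
    (u : (𝓞 K)ˣ) (hu : (hζ.toInteger - 1) ^ p ∣ (u : 𝓞 K) - 1) :
    ∃ v : (𝓞 K)ˣ, u = v ^ p :=
  KummerNorm.exists_pow_eq_of_unramified hp2 u
    (fun _ _ _ _ _ => KummerUnram.unramifiedEverywhere hp2 hζ u hu)

include hζ in
/-- **Kummer's lemma** (class number one case). -/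
theorem kummer (hp2 : p ≠ 2) (hpid : IsPrincipalIdealRing (𝓞 K))
    (u : (𝓞 K)ˣ) (a : ℤ) (hu : (p : 𝓞 K) ∣ (u : 𝓞 K) - (a : 𝓞 K)) :
    ∃ v : (𝓞 K)ˣ, u = v ^ p :=
  KummerNorm.kummer_of_unramified hp2 hζ
    (fun a ha _ _ _ _ _ => KummerUnram.unramifiedEverywhere hp2 hζ a ha) u a hu

end Fermat.Agent.S10.KummerLemma
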