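import Mathlib
import Fermat.Agent.S10.CycloPID

/-!
# S11: the ring of integers of `ℚ(ζ₁₁)` is a principal ideal domain

Wrapper with the name used by the design of the Kummer project; the proof is
`Fermat.Agent.S10.CycloPID.eleven_pid`.
-/

set_option autoImplicit false

namespace Fermat.Agent.S10.PID11

open NumberField

/-- If `IsCyclotomicExtension {11} ℚ K` then `𝓞 K` is a principal ideal domain. -/
theorem pid_eleven (K : Type*) [Field K] [NumberField K] [IsCyclotomicExtension {11} ℚ K] :
    IsPrincipalIdealRing (𝓞 K) :=
  Fermat.Agent.S10.CycloPID.eleven_pid K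

end Fermat.Agent.S10.PID11
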