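/-
`𝓞 ℚ(ζ₁₃)` is a principal ideal domain (class number one), by the Minkowski bound
(`⌊M⌋ ≤ 307`), the inertia degrees `f = orderOf (ℓ mod 13)` and explicit principal primes above
`ℓ = 3, 13, 53, 79, 131, 157` (Kummer–Dedekind certificates).
-/
import Mathlib

set_option autoImplicit false

namespace Fermat.Agent.S10.PID13

open NumberField Polynomial Ideal RingOfIntegers IsCyclotomicExtension NumberField.Ideal
open Module InfinitePlace Nat Real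

section Cert


variable {m : ℕ} [NeZero m] (ℓ : ℕ) [Fact ℓ.Prime] (K : Type*) [Field K] [NumberField K]
  [IsCyclotomicExtension {m} ℚ K]

/-- Kummer–Dedekind certificate for a principal prime above `ℓ` in `ℚ(ζ_m)`. -/
theorem exists_principal_of_cert (Q : ℤ[X]) (hQm : Q.Monic)
    (hQi : Irreducible (Q.map (Int.castRingHom (ZMod ℓ))))
    (hQd : Q.map (Int.castRingHom (ZMod ℓ)) ∣ cyclotomic m (ZMod ℓ))
    (α β γ u v : 𝓞 K)
    (h1 : α * β = (ℓ : 𝓞 K))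
    (h2 : α * γ = aeval (zeta_spec m ℚ K).toInteger Q)
    (h3 : α = (ℓ : 𝓞 K) * u + aeval (zeta_spec m ℚ K).toInteger Q * v) :
    ∃ P ∈ primesOver (span {(ℓ : ℤ)}) (𝓞 K), Submodule.IsPrincipal P := by
  set θ := (zeta_spec m ℚ K).toInteger with hθ
  have hexp : ¬ ℓ ∣ exponent θ := by
    rw [exponent_eq_one_iff.mpr <| Rat.adjoin_singleton_eq_top (zeta_spec m ℚ K)]
    exact (Fact.out : ℓ.Prime).not_dvd_one
  have hmin : minpoly ℤ θ = cyclotomic m ℤ := by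
    rw [cyclotomic_eq_minpoly (zeta_spec m ℚ K) (NeZero.pos _), ← RingOfIntegers.minpoly_coe θ]
    rfl
  have hQ : Q.map (Int.castRingHom (ZMod ℓ)) ∈ monicFactorsMod θ ℓ := by
    rw [Multiset.mem_toFinset,
      Polynomial.mem_normalizedFactors_iff (map_monic_ne_zero (minpoly.monic θ.isIntegral))]
    refine ⟨hQi, hQm.map _, ?_⟩
    rw [hmin, map_cyclotomic]
    exact hQd
  refine ⟨span {(ℓ : 𝓞 K), aeval θ Q}, ?_, ?_⟩
  · rw [← primesOverSpanEquivMonicFactorsMod_symm_apply_eq_span hexp hQ]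
    exact ((primesOverSpanEquivMonicFactorsMod hexp).symm ⟨_, hQ⟩).prop
  · have : span {(ℓ : 𝓞 K), aeval θ Q} = span {α} := by
      apply le_antisymm
      · rw [span_le]
        rintro x (rfl | rfl)
        · exact mem_span_singleton.mpr ⟨β, h1.symm⟩
        · exact mem_span_singleton.mpr ⟨γ, h2.symm⟩
      · rw [span_singleton_le_iff_mem, h3]
        exact add_mem (mul_mem_right _ _ (subset_span (by simp)))
          (mul_mem_right _ _ (subset_span (by simp)))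
    rw [this]
    exact ⟨⟨α, rfl⟩⟩

end Cert

/-! ### The prime `3` (inertia degree `3`) -/

theorem three_eq_zero_poly : (3 : (ZMod 3)[X]) = 0 := by
  have h : (3 : ZMod 3) = 0 := by decide
  have h2 := congrArg (C : ZMod 3 →+* (ZMod 3)[X]) h
  rwa [map_ofNat, map_zero] at h2

theorem cubic_monic : (X ^ 3 - (X + C 1) : ℤ[X]).Monic :=
  monic_X_pow_sub (by rw [degree_X_add_C]; norm_num)

theorem cubic_map :
    (X ^ 3 - (X + C 1) : ℤ[X]).map (Int.castRingHom (ZMod 3)) = X ^ 3 - (X + C 1) := by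
  simp

theorem cubic_irreducible : Irreducible (X ^ 3 - (X + C 1) : (ZMod 3)[X]) := by
  have : Fact (Nat.Prime 3) := ⟨by norm_num⟩
  apply irreducible_of_degree_le_three_of_not_isRoot
  · have : (X ^ 3 - (X + C 1) : (ZMod 3)[X]).natDegree = 3 := by
      compute_degree!
    rw [this]; decide
  · intro x
    simp only [IsRoot.def, eval_sub, eval_pow, eval_X, eval_add, eval_C]
    revert x
    decide +revert

theorem cubic_dvd : (X ^ 3 - (X + C 1) : (ZMod 3)[X]) ∣ cyclotomic 13 (ZMod 3) := by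
  have : Fact (Nat.Prime 13) := ⟨by norm_num⟩
  refine ⟨-1 - X ^ 2 - X ^ 3 + X ^ 5 - X ^ 7 + X ^ 8 + X ^ 9, ?_⟩
  rw [cyclotomic_prime]
  simp only [Finset.sum_range_succ, Finset.range_zero, Finset.sum_empty, map_one]
  linear_combination (X ^ 5 + X ^ 6 + X ^ 9 + X ^ 10) * three_eq_zero_poly

/-! ### The arithmetic table -/

set_option maxRecDepth 1000000 in
theorem table13 : ∀ ℓ ∈ Finset.range 308, ∀ j ∈ Finset.Icc 1 8, ℓ ^ j ≤ 307 → ℓ ^ j % 13 = 1 →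
    (ℓ = 3 ∨ ℓ = 53 ∨ ℓ = 79 ∨ ℓ = 131 ∨ ℓ = 157) ∨ ℓ ≤ 1 ∨
      ∃ d ∈ Finset.Icc 2 17, d < ℓ ∧ d ∣ ℓ := by
  decide

theorem lt_pow_orderOf {ℓ : ℕ} (hℓ : ℓ.Prime) (h307 : ℓ ≤ 307) (h13 : ℓ ≠ 13) (h3 : ℓ ≠ 3)
    (h53 : ℓ ≠ 53) (h79 : ℓ ≠ 79) (h131 : ℓ ≠ 131) (h157 : ℓ ≠ 157) :
    307 < ℓ ^ orderOf (ℓ : ZMod 13) := by
  have : Fact (Nat.Prime 13) := ⟨by norm_num⟩
  have hunit : (ℓ : ZMod 13) ≠ 0 := by
    rw [Ne, ZMod.natCast_eq_zero_iff]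
    intro h
    exact h13 ((Nat.prime_dvd_prime_iff_eq (by norm_num) hℓ).mp h).symm
  have hfpos : 0 < orderOf (ℓ : ZMod 13) := by
    have h12 : (ℓ : ZMod 13) ^ 12 = 1 := ZMod.pow_card_sub_one_eq_one hunit
    exact Nat.pos_of_dvd_of_pos (orderOf_dvd_of_pow_eq_one h12) (by norm_num)
  have hpow : (ℓ : ZMod 13) ^ orderOf (ℓ : ZMod 13) = 1 := pow_orderOf_eq_one _
  generalize orderOf (ℓ : ZMod 13) = f at hfpos hpow ⊢
  have hmod : ℓ ^ f % 13 = 1 := by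
    have h : ((ℓ ^ f : ℕ) : ZMod 13) = ((1 : ℕ) : ZMod 13) := by
      push_cast
      exact hpow
    rw [ZMod.natCast_eq_natCast_iff'] at h
    simpa using h
  by_contra hcon
  rw [not_lt] at hcon
  have hf8 : f ≤ 8 := by
    by_contra h
    rw [not_le] at h
    have h1 : 2 ^ 9 ≤ ℓ ^ f :=
      (Nat.pow_le_pow_left hℓ.two_le 9).trans (Nat.pow_le_pow_right hℓ.pos h)
    omega
  rcases table13 ℓ (Finset.mem_range.mpr (by omega)) f (Finset.mem_Icc.mpr ⟨hfpos, hf8⟩)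
    hcon hmod with h | h | ⟨d, hd, hdlt, hdvd⟩
  · omega
  · have := hℓ.two_le
    omega
  · rw [Finset.mem_Icc] at hd
    rcases (Nat.dvd_prime hℓ).mp hdvd with h | h <;> omega

section Thirteen

variable (K : Type*) [Field K] [NumberField K] [IsCyclotomicExtension {13} ℚ K]

theorem sum_zeta_pow :
    1 + (zeta_spec 13 ℚ K).toInteger + (zeta_spec 13 ℚ K).toInteger ^ 2
      + (zeta_spec 13 ℚ K).toInteger ^ 3 + (zeta_spec 13 ℚ K).toInteger ^ 4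
      + (zeta_spec 13 ℚ K).toInteger ^ 5 + (zeta_spec 13 ℚ K).toInteger ^ 6
      + (zeta_spec 13 ℚ K).toInteger ^ 7 + (zeta_spec 13 ℚ K).toInteger ^ 8
      + (zeta_spec 13 ℚ K).toInteger ^ 9 + (zeta_spec 13 ℚ K).toInteger ^ 10
      + (zeta_spec 13 ℚ K).toInteger ^ 11 + (zeta_spec 13 ℚ K).toInteger ^ 12 = 0 := by
  have h := (zeta_spec 13 ℚ K).toInteger_isPrimitiveRoot.geom_sum_eq_zero (by norm_num)
  simpa [Finset.sum_range_succ] using h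

theorem principal_3 : ∃ P ∈ primesOver (span {((3 : ℕ) : ℤ)}) (𝓞 K),
    Submodule.IsPrincipal P := by
  have : Fact (Nat.Prime 3) := ⟨by norm_num⟩
  have hΦ := sum_zeta_pow K
  set θ := (zeta_spec 13 ℚ K).toInteger with hθ
  refine exists_principal_of_cert (m := 13) 3 K (X ^ 3 - (X + C 1)) cubic_monic ?_ ?_
    (1 + θ - θ ^ 3)
    (-1 - θ ^ 2 - θ ^ 3 - 2 * θ ^ 5 - θ ^ 7 - 2 * θ ^ 8 + θ ^ 9 - 3 * θ ^ 10)
    (-1) 0 (-1) ?_ ?_ ?_
  · rw [cubic_map]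
    exact cubic_irreducible
  · rw [cubic_map]
    exact cubic_dvd
  · push_cast
    linear_combination (-4 + 3 * θ) * hΦ
  · simp only [map_sub, map_add, map_pow, aeval_X, map_one, ← hθ]
    ring
  · simp only [map_sub, map_add, map_pow, aeval_X, map_one, ← hθ]
    ring

theorem principal_53 : ∃ P ∈ primesOver (span {((53 : ℕ) : ℤ)}) (𝓞 K),
    Submodule.IsPrincipal P := by
  have : Fact (Nat.Prime 53) := ⟨by norm_num⟩
  have : Fact (Nat.Prime 13) := ⟨by norm_num⟩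
  have hΦ := sum_zeta_pow K
  set θ := (zeta_spec 13 ℚ K).toInteger with hθ
  refine exists_principal_of_cert (m := 13) 53 K (X - C 16) (monic_X_sub_C _) ?_ ?_
    (1 - θ + θ ^ 3)
    (25 + 10 * θ + 19 * θ ^ 2 + 3 * θ ^ 3 + 2 * θ ^ 4 - 8 * θ ^ 5 - 2 * θ ^ 6 + 5 * θ ^ 7 + 22 * θ ^ 8 + 33 * θ ^ 9 + 37 * θ ^ 10 + 24 * θ ^ 11)
    (-8 - 3 * θ - 6 * θ ^ 2 - θ ^ 3 - θ ^ 4 + 2 * θ ^ 5 - 2 * θ ^ 7 - 7 * θ ^ 8 - 10 * θ ^ 9 - 11 * θ ^ 10 - 7 * θ ^ 11)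
    (77)
    (255 + 16 * θ + θ ^ 2) ?_ ?_ ?_
  · rw [Polynomial.map_sub, map_X, map_C]
    exact irreducible_X_sub_C _
  · rw [Polynomial.map_sub, map_X, map_C, dvd_iff_isRoot, IsRoot.def, cyclotomic_prime,
      eval_finsetSum]
    simp only [eval_pow, eval_X, map_ofNat]
    have h : ((∑ x ∈ Finset.range 13, 16 ^ x : ℕ) : ZMod 53) = 0 := by
      rw [ZMod.natCast_eq_zero_iff]
      norm_num [Finset.sum_range_succ]
    simpa using h
  · push_cast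
    linear_combination (-28 + 13 * θ + 24 * θ ^ 2) * hΦ
  · simp only [map_sub, aeval_X, map_ofNat, ← hθ]
    linear_combination (8 - 4 * θ - 7 * θ ^ 2) * hΦ
  · simp only [map_sub, aeval_X, map_ofNat, ← hθ]
    push_cast
    ring

theorem principal_79 : ∃ P ∈ primesOver (span {((79 : ℕ) : ℤ)}) (𝓞 K),
    Submodule.IsPrincipal P := by
  have : Fact (Nat.Prime 79) := ⟨by norm_num⟩
  have : Fact (Nat.Prime 13) := ⟨by norm_num⟩
  have hΦ := sum_zeta_pow K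
  set θ := (zeta_spec 13 ℚ K).toInteger with hθ
  refine exists_principal_of_cert (m := 13) 79 K (X - C 62) (monic_X_sub_C _) ?_ ?_
    (1 - θ - θ ^ 4)
    (62 + 63 * θ + 49 * θ ^ 2 + 8 * θ ^ 3 + 29 * θ ^ 4 + 51 * θ ^ 5 + 59 * θ ^ 6 + 26 * θ ^ 7 + 14 * θ ^ 8 + 24 * θ ^ 9 + 42 * θ ^ 10 + 27 * θ ^ 11)
    (-49 - 49 * θ - 38 * θ ^ 2 - 6 * θ ^ 3 - 23 * θ ^ 4 - 40 * θ ^ 5 - 46 * θ ^ 6 - 20 * θ ^ 7 - 11 * θ ^ 8 - 19 * θ ^ 9 - 33 * θ ^ 10 - 21 * θ ^ 11)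
    (-187043)
    (-238329 - 3844 * θ - 62 * θ ^ 2 - θ ^ 3) ?_ ?_ ?_
  · rw [Polynomial.map_sub, map_X, map_C]
    exact irreducible_X_sub_C _
  · rw [Polynomial.map_sub, map_X, map_C, dvd_iff_isRoot, IsRoot.def, cyclotomic_prime,
      eval_finsetSum]
    simp only [eval_pow, eval_X, map_ofNat]
    have h : ((∑ x ∈ Finset.range 13, 62 ^ x : ℕ) : ZMod 79) = 0 := by
      rw [ZMod.natCast_eq_zero_iff]
      norm_num [Finset.sum_range_succ]
    simpa using h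
  · push_cast
    linear_combination (-17 + 18 * θ - 15 * θ ^ 2 - 27 * θ ^ 3) * hΦ
  · simp only [map_sub, aeval_X, map_ofNat, ← hθ]
    linear_combination (13 - 14 * θ + 12 * θ ^ 2 + 21 * θ ^ 3) * hΦ
  · simp only [map_sub, aeval_X, map_ofNat, ← hθ]
    push_cast
    ring

theorem principal_131 : ∃ P ∈ primesOver (span {((131 : ℕ) : ℤ)}) (𝓞 K),
    Submodule.IsPrincipal P := by
  have : Fact (Nat.Prime 131) := ⟨by norm_num⟩
  have : Fact (Nat.Prime 13) := ⟨by norm_num⟩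
  have hΦ := sum_zeta_pow K
  set θ := (zeta_spec 13 ℚ K).toInteger with hθ
  refine exists_principal_of_cert (m := 13) 131 K (X - C 80) (monic_X_sub_C _) ?_ ?_
    (1 - θ - θ ^ 3)
    (111 + 78 * θ + 17 * θ ^ 2 + 67 * θ ^ 3 + 84 * θ ^ 4 + 40 * θ ^ 5 + 46 * θ ^ 6 + 69 * θ ^ 7 + 48 * θ ^ 8 + 33 * θ ^ 9 + 41 * θ ^ 10 + 28 * θ ^ 11)
    (-68 - 47 * θ - 10 * θ ^ 2 - 41 * θ ^ 3 - 51 * θ ^ 4 - 24 * θ ^ 5 - 28 * θ ^ 6 - 42 * θ ^ 7 - 29 * θ ^ 8 - 20 * θ ^ 9 - 25 * θ ^ 10 - 17 * θ ^ 11)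
    (-3909)
    (-6401 - 80 * θ - θ ^ 2) ?_ ?_ ?_
  · rw [Polynomial.map_sub, map_X, map_C]
    exact irreducible_X_sub_C _
  · rw [Polynomial.map_sub, map_X, map_C, dvd_iff_isRoot, IsRoot.def, cyclotomic_prime,
      eval_finsetSum]
    simp only [eval_pow, eval_X, map_ofNat]
    have h : ((∑ x ∈ Finset.range 13, 80 ^ x : ℕ) : ZMod 131) = 0 := by
      rw [ZMod.natCast_eq_zero_iff]
      norm_num [Finset.sum_range_succ]
    simpa using h
  · push_cast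
    linear_combination (-20 - 13 * θ - 28 * θ ^ 2) * hΦ
  · simp only [map_sub, aeval_X, map_ofNat, ← hθ]
    linear_combination (12 + 8 * θ + 17 * θ ^ 2) * hΦ
  · simp only [map_sub, aeval_X, map_ofNat, ← hθ]
    push_cast
    ring

theorem principal_157 : ∃ P ∈ primesOver (span {((157 : ℕ) : ℤ)}) (𝓞 K),
    Submodule.IsPrincipal P := by
  have : Fact (Nat.Prime 157) := ⟨by norm_num⟩
  have : Fact (Nat.Prime 13) := ⟨by norm_num⟩
  have hΦ := sum_zeta_pow K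
  set θ := (zeta_spec 13 ℚ K).toInteger with hθ
  refine exists_principal_of_cert (m := 13) 157 K (X - C 75) (monic_X_sub_C _) ?_ ?_
    (1 - θ + θ ^ 2 + θ ^ 4)
    (89 + 86 * θ + 42 * θ ^ 2 + 77 * θ ^ 3 + 67 * θ ^ 4 + 25 * θ ^ 5 + 37 * θ ^ 6 + 56 * θ ^ 7 + 73 * θ ^ 8 + 113 * θ ^ 9 + 124 * θ ^ 10 + 76 * θ ^ 11)
    (-43 - 41 * θ - 20 * θ ^ 2 - 37 * θ ^ 3 - 32 * θ ^ 4 - 12 * θ ^ 5 - 18 * θ ^ 6 - 27 * θ ^ 7 - 35 * θ ^ 8 - 54 * θ ^ 9 - 59 * θ ^ 10 - 36 * θ ^ 11)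
    (201568)
    (421949 + 5626 * θ + 75 * θ ^ 2 + θ ^ 3) ?_ ?_ ?_
  · rw [Polynomial.map_sub, map_X, map_C]
    exact irreducible_X_sub_C _
  · rw [Polynomial.map_sub, map_X, map_C, dvd_iff_isRoot, IsRoot.def, cyclotomic_prime,
      eval_finsetSum]
    simp only [eval_pow, eval_X, map_ofNat]
    have h : ((∑ x ∈ Finset.range 13, 75 ^ x : ℕ) : ZMod 157) = 0 := by
      rw [ZMod.natCast_eq_zero_iff]
      norm_num [Finset.sum_range_succ]
    simpa using h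
  · push_cast
    linear_combination (-68 + 65 * θ + 48 * θ ^ 2 + 76 * θ ^ 3) * hΦ
  · simp only [map_sub, aeval_X, map_ofNat, ← hθ]
    linear_combination (32 - 31 * θ - 23 * θ ^ 2 - 36 * θ ^ 3) * hΦ
  · simp only [map_sub, aeval_X, map_ofNat, ← hθ]
    push_cast
    ring

/-! ### The Minkowski bound -/


theorem sqrt_thirteen_pow_lt : √((13 : ℝ) ^ 11) < 1338716 := by
  rw [Real.sqrt_lt' (by norm_num)]
  norm_num

theorem minkowski_lt :
    (4 / π) ^ nrComplexPlaces K *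
      ((finrank ℚ K)! / (finrank ℚ K) ^ (finrank ℚ K) * √|discr K|) < 308 := by
  have : Fact (Nat.Prime 13) := ⟨by norm_num⟩
  rw [Rat.discr_prime 13 K, IsCyclotomicExtension.finrank (n := 13) K
    (cyclotomic.irreducible_rat (by norm_num)), Rat.nrComplexPlaces_eq_totient_div_two 13,
    totient_prime (by norm_num)]
  have h1 : ((13 - 1) / 2 : ℕ) = 6 := by norm_num
  have h2 : (13 - 1 : ℕ) = 12 := by norm_num
  have h3 : (13 - 2 : ℕ) = 11 := by norm_num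
  rw [h1, h2, h3]
  have h4 : |(((-1 : ℤ) ^ 6 * ((13 : ℕ) : ℤ) ^ 11 : ℤ) : ℝ)| = (13 : ℝ) ^ 11 := by
    push_cast
    rw [abs_of_pos (by positivity)]
    norm_num
  rw [h4]
  have hπ : (4 / π) ^ 6 < (4 / 3.14) ^ 6 := by
    have := Real.pi_gt_d2
    gcongr
  have h12 : ((12 : ℕ)! : ℝ) = 479001600 := by
    norm_num [Nat.factorial]
  rw [h12]
  calc (4 / π) ^ 6 * (479001600 / ((12 : ℕ) : ℝ) ^ 12 * √((13 : ℝ) ^ 11))
      < (4 / 3.14) ^ 6 * (479001600 / ((12 : ℕ) : ℝ) ^ 12 * 1338716) := by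
        have := sqrt_thirteen_pow_lt
        gcongr
    _ < 308 := by norm_num

theorem floor_minkowski_le :
    ⌊(4 / π) ^ nrComplexPlaces K *
      ((finrank ℚ K)! / (finrank ℚ K) ^ (finrank ℚ K) * √|discr K|)⌋₊ ≤ 307 := by
  have h := minkowski_lt K
  refine Nat.lt_succ_iff.mp ((Nat.floor_lt' (by norm_num)).mpr ?_)
  simpa using h


/-- The ring of integers of `ℚ(ζ₁₃)` is a principal ideal domain. -/
theorem pid_thirteen : IsPrincipalIdealRing (𝓞 K) := by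
  have : Fact (Nat.Prime 13) := ⟨by norm_num⟩
  have : IsGalois ℚ K := IsCyclotomicExtension.isGalois {13} ℚ K
  have hM := floor_minkowski_le K
  refine isPrincipalIdealRing_of_isPrincipal_of_lt_or_isPrincipal_of_mem_primesOver_of_mem_Icc
    (fun ℓ hℓ hℓp => ?_)
  have hℓ307 : ℓ ≤ 307 := (Finset.mem_Icc.mp hℓ).2.trans hM
  by_cases h13 : ℓ = 13
  · subst h13
    have hζ := zeta_spec 13 ℚ K
    have hK' : IsCyclotomicExtension {13 ^ (0 + 1)} ℚ K := by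
      rw [zero_add, pow_one]
      infer_instance
    have hζ' : IsPrimitiveRoot (zeta 13 ℚ K) (13 ^ (0 + 1)) := by
      rw [zero_add, pow_one]
      exact hζ
    exact ⟨span {hζ'.toInteger - 1},
      ⟨Rat.isPrime_span_zeta_sub_one 13 0 hζ', Rat.liesOver_span_zeta_sub_one 13 0 hζ'⟩,
      Or.inr ⟨⟨_, rfl⟩⟩⟩
  by_cases h3 : ℓ = 3
  · subst h3
    obtain ⟨P, hP, hpr⟩ := principal_3 K
    exact ⟨P, hP, Or.inr hpr⟩
  by_cases h53 : ℓ = 53
  · subst h53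
    obtain ⟨P, hP, hpr⟩ := principal_53 K
    exact ⟨P, hP, Or.inr hpr⟩
  by_cases h79 : ℓ = 79
  · subst h79
    obtain ⟨P, hP, hpr⟩ := principal_79 K
    exact ⟨P, hP, Or.inr hpr⟩
  by_cases h131 : ℓ = 131
  · subst h131
    obtain ⟨P, hP, hpr⟩ := principal_131 K
    exact ⟨P, hP, Or.inr hpr⟩
  by_cases h157 : ℓ = 157
  · subst h157
    obtain ⟨P, hP, hpr⟩ := principal_157 K
    exact ⟨P, hP, Or.inr hpr⟩
  have : Fact ℓ.Prime := ⟨hℓp⟩
  obtain ⟨⟨P, hP1, hP2⟩⟩ := (span {(ℓ : ℤ)}).nonempty_primesOver (S := 𝓞 K)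
  refine ⟨P, ⟨hP1, hP2⟩, Or.inl ?_⟩
  have hnd : ¬ ℓ ∣ 13 := fun h =>
    h13 ((Nat.prime_dvd_prime_iff_eq hℓp (by norm_num)).mp h)
  rw [Rat.inertiaDeg_eq_of_not_dvd ℓ K P hnd]
  exact lt_of_le_of_lt hM (lt_pow_orderOf hℓp hℓ307 h13 h3 h53 h79 h131 h157)

end Thirteen

end Fermat.Agent.S10.PID13
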