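import Mathlib

/-!
# S10 (Kummer): the ring of integers of `ℚ(ζ₇)` is a principal ideal domain

Minkowski's bound is `< 5`, and the primes `2` and `3` have residue degree `3` and `6` in
`ℚ(ζ₇)`, so there is no prime ideal of norm `≤ 4`.
-/

set_option autoImplicit false

open NumberField Module InfinitePlace Ideal Nat Real

namespace Fermat.Agent.S10.PID7

variable (K : Type*) [Field K] [NumberField K] [IsCyclotomicExtension {7} ℚ K]

/-- Minkowski's bound of `ℚ(ζ₇)` is smaller than `5`. -/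
theorem minkowski_lt :
    (4 / π) ^ nrComplexPlaces K *
      ((finrank ℚ K)! / (finrank ℚ K) ^ (finrank ℚ K) * √|(discr K : ℝ)|) < 5 := by
  have h7 : Fact (Nat.Prime 7) := ⟨by norm_num⟩
  rw [IsCyclotomicExtension.Rat.discr_prime 7 K,
    IsCyclotomicExtension.finrank (n := 7) K (Polynomial.cyclotomic.irreducible_rat (by simp)),
    IsCyclotomicExtension.Rat.nrComplexPlaces_eq_totient_div_two 7, totient_prime h7.out]
  have hfact : ((7 - 1)! : ℝ) = 720 := by
    have : (7 - 1)! = 720 := by decide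
    exact_mod_cast this
  have hdisc : |(((-1 : ℤ) ^ ((7 - 1) / 2) * ((7 : ℕ) : ℤ) ^ (7 - 2) : ℤ) : ℝ)| = 16807 := by
    norm_num
  rw [hfact, hdisc]
  have hsqrt : √(16807 : ℝ) < 130 := by
    rw [Real.sqrt_lt' (by norm_num)]
    norm_num
  have hpi : (4 / π) ^ ((7 - 1) / 2) < (4 / 3 : ℝ) ^ 3 := by
    have h3 : (7 - 1) / 2 = 3 := by norm_num
    rw [h3]
    have hπ := pi_gt_three
    have hπ0 : (0 : ℝ) < π := pi_pos
    have : 4 / π < 4 / 3 := by
      apply div_lt_div_of_pos_left (by norm_num) (by norm_num) hπ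
    exact pow_lt_pow_left₀ this (by positivity) (by norm_num)
  have hs0 : (0 : ℝ) ≤ √(16807 : ℝ) := Real.sqrt_nonneg _
  have hcast : ((7 - 1 : ℕ) : ℝ) = 6 := by norm_num
  rw [hcast]
  have h6 : (7 - 1 : ℕ) = 6 := by norm_num
  rw [h6]
  calc (4 / π) ^ ((7 - 1) / 2) * ((720 : ℝ) / 6 ^ 6 * √(16807 : ℝ))
      ≤ (4 / 3 : ℝ) ^ 3 * ((720 : ℝ) / 6 ^ 6 * √(16807 : ℝ)) := by
        apply mul_le_mul_of_nonneg_right hpi.le
        positivity
    _ ≤ (4 / 3 : ℝ) ^ 3 * ((720 : ℝ) / 6 ^ 6 * 130) := by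
        apply mul_le_mul_of_nonneg_left _ (by positivity)
        apply mul_le_mul_of_nonneg_left hsqrt.le (by positivity)
    _ < 5 := by norm_num

theorem orderOf_two : orderOf ((2 : ℕ) : ZMod 7) = 3 := by
  rw [orderOf_eq_iff (by norm_num)]
  refine ⟨by decide, fun m hm hm0 => ?_⟩
  interval_cases m <;> decide

theorem orderOf_three : orderOf ((3 : ℕ) : ZMod 7) = 6 := by
  rw [orderOf_eq_iff (by norm_num)]
  refine ⟨by decide, fun m hm hm0 => ?_⟩
  interval_cases m <;> decide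

/-- The ring of integers of `ℚ(ζ₇)` is a principal ideal domain. -/
theorem pid_seven : IsPrincipalIdealRing (𝓞 K) := by
  have h7 : Fact (Nat.Prime 7) := ⟨by norm_num⟩
  have hgal : IsGalois ℚ K := IsCyclotomicExtension.isGalois {7} ℚ K
  have hM := minkowski_lt K
  have hfloor : ⌊(4 / π) ^ nrComplexPlaces K *
      ((finrank ℚ K)! / (finrank ℚ K) ^ (finrank ℚ K) * √|(discr K : ℝ)|)⌋₊ ≤ 4 := by
    have : ⌊(4 / π) ^ nrComplexPlaces K *
      ((finrank ℚ K)! / (finrank ℚ K) ^ (finrank ℚ K) * √|(discr K : ℝ)|)⌋₊ < 5 := by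
      rw [Nat.floor_lt (by positivity)]
      exact_mod_cast hM
    omega
  refine RingOfIntegers.isPrincipalIdealRing_of_isPrincipal_of_lt_or_isPrincipal_of_mem_primesOver_of_mem_Icc
    (fun ℓ hℓ hprime => ?_)
  have hℓ4 : ℓ ≤ 4 := (Finset.mem_Icc.mp hℓ).2.trans hfloor
  have hℓ2 : 2 ≤ ℓ := hprime.two_le
  have hcases : ℓ = 2 ∨ ℓ = 3 := by
    interval_cases ℓ
    · exact Or.inl rfl
    · exact Or.inr rfl
    · exact absurd hprime (by norm_num)
  have hfact : Fact ℓ.Prime := ⟨hprime⟩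
  obtain ⟨⟨P, hP1, hP2⟩⟩ := (span {(ℓ : ℤ)}).nonempty_primesOver (S := 𝓞 K)
  refine ⟨P, ⟨hP1, hP2⟩, Or.inl ?_⟩
  rcases hcases with rfl | rfl
  · have hf := IsCyclotomicExtension.Rat.inertiaDeg_eq_of_not_dvd (m := 7) 2 K P (by norm_num)
    rw [hf, orderOf_two]
    omega
  · have hf := IsCyclotomicExtension.Rat.inertiaDeg_eq_of_not_dvd (m := 7) 3 K P (by norm_num)
    rw [hf, orderOf_three]
    omega

end Fermat.Agent.S10.PID7
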