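/-
S10 / S11 (FLT for the exponents 5, 7, 11, 13 via Kummer): congruences of `p`-th powers in the ring
of integers of `K = ℚ(ζ_p)`, `λ = ζ - 1`, used by the descent of the second case.

* `associated_zeta_sub_one_pow` : `λ ^ p` is associated to `λ * p`; `prime_dvd_zeta_sub_one_pow`;
* `pow_sub_pow_dvd` : `a ≡ b` modulo `λ` implies `a ^ p ≡ b ^ p` modulo `λ ^ p`;
* `exists_int_pow_sub_dvd'`, `exists_int_pow_sub_dvd` : a `p`-th power is congruent to a rational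
  integer modulo `λ ^ p`, hence modulo `p`;
* `exists_int_sub_dvd_of_pow_add` : if `ρ₁ ^ p + η * ρ₂ ^ p ≡ 0` modulo `p` with `ρ₂` prime to `λ`,
  then `η` is congruent to a rational integer modulo `p` (the input of Kummer's lemma).
-/
import Mathlib
import Fermat.Agent.S10.KummerNorm

namespace Fermat.Agent.S10.UnitLemmas

open NumberField Polynomial

universe u

variable {p : ℕ} [hp : Fact p.Prime] {K : Type u} [Field K] [NumberField K]
  [IsCyclotomicExtension {p} ℚ K] {ζ : K} (hζ : IsPrimitiveRoot ζ p)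

omit [NumberField K] [IsCyclotomicExtension {p} ℚ K] in
/-- `λ ^ p` and `λ * p` are associated. -/
theorem associated_zeta_sub_one_pow :
    Associated ((hζ.toInteger - 1) ^ p) ((hζ.toInteger - 1) * (p : 𝓞 K)) := by
  have h := IsCyclotomicExtension.Rat.associated_zeta_sub_one_pow_prime p hζ
  have h12 : (hζ.toInteger - 1) ^ p = (hζ.toInteger - 1) * (hζ.toInteger - 1) ^ (p - 1) := by
    rw [← pow_succ', Nat.sub_add_cancel hp.out.one_le]
  rw [h12]
  exact Associated.mul_left _ h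

omit [NumberField K] [IsCyclotomicExtension {p} ℚ K] in
/-- `p ∣ λ ^ p`. -/
theorem prime_dvd_zeta_sub_one_pow : (p : 𝓞 K) ∣ (hζ.toInteger - 1) ^ p :=
  (Dvd.intro_left _ rfl).trans (associated_zeta_sub_one_pow hζ).symm.dvd

omit [NumberField K] [IsCyclotomicExtension {p} ℚ K] in
/-- if `a ≡ b` modulo `λ` then `a ^ p ≡ b ^ p` modulo `λ ^ p`. -/
theorem pow_sub_pow_dvd {a b : 𝓞 K} (h : hζ.toInteger - 1 ∣ a - b) :
    (hζ.toInteger - 1) ^ p ∣ a ^ p - b ^ p := by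
  obtain ⟨c, hc⟩ := h
  have ha : a = b + (hζ.toInteger - 1) * c := by rw [← hc]; ring
  obtain ⟨r, hr⟩ := exists_add_pow_prime_eq hp.out b ((hζ.toInteger - 1) * c)
  have h1 : a ^ p - b ^ p = (hζ.toInteger - 1) ^ p * c ^ p +
      ((hζ.toInteger - 1) * (p : 𝓞 K)) * (b * c * r) := by
    rw [ha, hr, mul_pow]
    ring
  rw [h1]
  exact dvd_add (Dvd.intro _ rfl)
    (Dvd.dvd.mul_right (associated_zeta_sub_one_pow hζ).dvd _)

/-- the `p`-th power of an algebraic integer is congruent to a rational integer modulo `λ ^ p`. -/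
theorem exists_int_pow_sub_dvd' (a : 𝓞 K) : ∃ n : ℤ, (hζ.toInteger - 1) ^ p ∣ a ^ p - n := by
  obtain ⟨m, hm⟩ := KummerNorm.exists_int_sub_dvd hζ a
  refine ⟨m ^ p, ?_⟩
  have := pow_sub_pow_dvd hζ hm
  push_cast
  exact this

include hζ in
/-- the `p`-th power of an algebraic integer is congruent to a rational integer modulo `p`. -/
theorem exists_int_pow_sub_dvd (a : 𝓞 K) : ∃ n : ℤ, (p : 𝓞 K) ∣ a ^ p - n := by
  obtain ⟨n, hn⟩ := exists_int_pow_sub_dvd' hζ a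
  exact ⟨n, (prime_dvd_zeta_sub_one_pow hζ).trans hn⟩

include hζ in
/-- the step of the descent feeding Kummer's lemma: if `ρ₁ ^ p + η * ρ₂ ^ p ≡ 0` modulo `p` and
`ρ₂` is prime to `λ`, then `η` is congruent to a rational integer modulo `p`. -/
theorem exists_int_sub_dvd_of_pow_add {ρ₁ ρ₂ η : 𝓞 K} (hρ₂ : ¬ hζ.toInteger - 1 ∣ ρ₂)
    (h : (p : 𝓞 K) ∣ ρ₁ ^ p + η * ρ₂ ^ p) : ∃ n : ℤ, (p : 𝓞 K) ∣ η - n := by
  obtain ⟨n₁, h₁⟩ := exists_int_pow_sub_dvd hζ ρ₁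
  obtain ⟨n₂, h₂⟩ := exists_int_pow_sub_dvd hζ ρ₂
  have hlprime : Prime (hζ.toInteger - 1) := hζ.zeta_sub_one_prime'
  have hlp : hζ.toInteger - 1 ∣ (p : 𝓞 K) := hζ.toInteger_sub_one_dvd_prime'
  -- `p ∤ n₂`
  have hn₂ : ¬ (p : ℤ) ∣ n₂ := by
    intro hd
    have h1 : (p : 𝓞 K) ∣ (n₂ : 𝓞 K) := by
      obtain ⟨k, rfl⟩ := hd
      exact ⟨k, by push_cast; rfl⟩
    have h2 : (p : 𝓞 K) ∣ ρ₂ ^ p := by
      have := dvd_add h₂ h1
      simpa using this
    exact hρ₂ (hlprime.dvd_of_dvd_pow (hlp.trans h2))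
  have hcop : IsCoprime (p : ℤ) n₂ :=
    (Nat.prime_iff_prime_int.mp hp.out).coprime_iff_not_dvd.mpr hn₂
  obtain ⟨s, k, hsk⟩ := hcop
  -- `s * p + k * n₂ = 1`
  refine ⟨-(n₁ * k), ?_⟩
  obtain ⟨c, hc⟩ := h
  obtain ⟨c₁, hc₁⟩ := h₁
  obtain ⟨c₂, hc₂⟩ := h₂
  have hsk' : (s : 𝓞 K) * p + k * n₂ = 1 := by
    have := congrArg (Int.cast : ℤ → 𝓞 K) hsk
    push_cast at this
    exact this
  refine ⟨η * s + k * c - k * c₁ - η * k * c₂, ?_⟩
  push_cast
  linear_combination (-η + 0) * hsk' + (k : 𝓞 K) * hc - (k : 𝓞 K) * hc₁ - η * k * hc₂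

end Fermat.Agent.S10.UnitLemmas
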